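/-
S14, Route T, block ClassZetaA.  Abstract summation by parts: from counting functions to Dirichlet
series `∑ N(a)^(-s)`.
FROZEN STATEMENTS (only replace the `sorry`s; add helper lemmas with prefix `abel_`).
-/
import Mathlib

set_option autoImplicit false

namespace Fermat.Agent.S14.Thaine.ClassZetaA

/-- `Nat.card {a // N a ≤ m}` is the cardinality of the finset `(hfin m).toFinset`. -/
theorem abel_card_eq {α : Type*} (N : α → ℕ) (hfin : ∀ m : ℕ, {a | N a ≤ m}.Finite) (m : ℕ) :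
    Nat.card {a // N a ≤ m} = (hfin m).toFinset.card :=
  Nat.card_eq_card_finite_toFinset (hfin m)

/-- There is no `a` with `N a ≤ 0`. -/
theorem abel_card_zero {α : Type*} (N : α → ℕ) (hN : ∀ a, 1 ≤ N a) :
    Nat.card {a // N a ≤ 0} = 0 := by
  have : IsEmpty {a // N a ≤ 0} := ⟨fun a => by have h1 := hN a.1; have h2 := a.2; omega⟩
  exact Nat.card_of_isEmpty

/-- Abel summation at the finset level: with `c m = #{a | N a ≤ m}`,
`∑_{N a ≤ M} f (N a) = c M * f M + ∑_{m < M} c m * (f m - f (m + 1))`. -/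
theorem abel_sum_eq {α : Type*} (N : α → ℕ) (hN : ∀ a, 1 ≤ N a)
    (hfin : ∀ m : ℕ, {a | N a ≤ m}.Finite) (f : ℕ → ℝ) (M : ℕ) :
    ∑ a ∈ (hfin M).toFinset, f (N a) =
      (Nat.card {a // N a ≤ M} : ℝ) * f M +
        ∑ m ∈ Finset.range M, (Nat.card {a // N a ≤ m} : ℝ) * (f m - f (m + 1)) := by
  classical
  induction M with
  | zero =>
    have h0 : (hfin 0).toFinset = ∅ := by
      ext a
      simp only [Set.Finite.mem_toFinset, Set.mem_ofPred_eq, Finset.notMem_empty, iff_false]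
      have h1 := hN a
      omega
    rw [h0, abel_card_zero N hN]
    simp
  | succ M ih =>
    have hsub : (hfin M).toFinset ⊆ (hfin (M + 1)).toFinset := by
      intro a ha
      simp only [Set.Finite.mem_toFinset, Set.mem_ofPred_eq] at ha ⊢
      omega
    have hconst : ∀ a ∈ (hfin (M + 1)).toFinset \ (hfin M).toFinset, f (N a) = f (M + 1) := by
      intro a ha
      simp only [Finset.mem_sdiff, Set.Finite.mem_toFinset, Set.mem_ofPred_eq] at ha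
      have h1 : N a = M + 1 := by omega
      rw [h1]
    have hsd : ∑ a ∈ (hfin (M + 1)).toFinset \ (hfin M).toFinset, f (N a) =
        (((hfin (M + 1)).toFinset.card : ℝ) - ((hfin M).toFinset.card : ℝ)) * f (M + 1) := by
      rw [Finset.sum_congr rfl hconst, Finset.sum_const, Finset.card_sdiff_of_subset hsub,
        nsmul_eq_mul, Nat.cast_sub (Finset.card_le_card hsub)]
    rw [← Finset.sum_sdiff hsub, hsd, ih, Finset.sum_range_succ]
    simp only [abel_card_eq N hfin]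
    ring

/-- The key estimate (from Bernoulli's inequality): `m (m^(-s) - (m+1)^(-s)) ≤ s m^(-s)`. -/
theorem abel_key {s : ℝ} (hs : 1 ≤ s) {m : ℕ} (hm : 1 ≤ m) :
    (m : ℝ) * ((m : ℝ) ^ (-s) - ((m + 1 : ℕ) : ℝ) ^ (-s)) ≤ s * (m : ℝ) ^ (-s) := by
  have hm0 : (0 : ℝ) < m := by exact_mod_cast hm
  have hm1 : (0 : ℝ) < (m : ℝ) + 1 := by linarith
  have hb : 1 + s * (-(1 / ((m : ℝ) + 1))) ≤ (1 + (-(1 / ((m : ℝ) + 1)))) ^ s :=
    one_add_mul_self_le_rpow_one_add (by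
      rw [neg_le_neg_iff, div_le_one hm1]; linarith) hs
  have hu : 1 + (-(1 / ((m : ℝ) + 1))) = (m : ℝ) / ((m : ℝ) + 1) := by
    field_simp
    ring
  rw [hu, Real.div_rpow hm0.le hm1.le] at hb
  rw [Real.rpow_neg hm0.le, Nat.cast_add, Nat.cast_one, Real.rpow_neg hm1.le]
  have hms : 0 < (m : ℝ) ^ s := Real.rpow_pos_of_pos hm0 s
  have hm1s : 0 < ((m : ℝ) + 1) ^ s := Real.rpow_pos_of_pos hm1 s
  have h1 : 1 - (m : ℝ) ^ s / ((m : ℝ) + 1) ^ s ≤ s / ((m : ℝ) + 1) := by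
    have h2 : s * (-(1 / ((m : ℝ) + 1))) = -(s / ((m : ℝ) + 1)) := by ring
    linarith
  have h3 : (m : ℝ) * (s / ((m : ℝ) + 1)) ≤ s := by
    rw [← mul_div_assoc, div_le_iff₀ hm1]
    nlinarith
  have h4 : (m : ℝ) * (1 - (m : ℝ) ^ s / ((m : ℝ) + 1) ^ s) ≤ s :=
    (mul_le_mul_of_nonneg_left h1 hm0.le).trans h3
  have h5 : (m : ℝ) * (((m : ℝ) ^ s)⁻¹ - (((m : ℝ) + 1) ^ s)⁻¹) =
      (m : ℝ) * (1 - (m : ℝ) ^ s / ((m : ℝ) + 1) ^ s) * ((m : ℝ) ^ s)⁻¹ := by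
    field_simp
  rw [h5]
  exact mul_le_mul_of_nonneg_right h4 (inv_nonneg.mpr hms.le)

/-- `m^(-s) - (m+1)^(-s) ≥ 0`. -/
theorem abel_diff_nonneg {s : ℝ} (hs : 0 ≤ s) {m : ℕ} (hm : 1 ≤ m) :
    0 ≤ (m : ℝ) ^ (-s) - ((m + 1 : ℕ) : ℝ) ^ (-s) := by
  have hm0 : (0 : ℝ) < m := by exact_mod_cast hm
  rw [sub_nonneg]
  exact Real.rpow_le_rpow_of_nonpos hm0 (by push_cast; linarith) (by linarith)

/-- `x * x^(-s) ≤ 1` for `x ≥ 1`, `s ≥ 1`. -/
theorem abel_mul_rpow_le_one {s : ℝ} (hs : 1 ≤ s) {x : ℝ} (hx : 1 ≤ x) : x * x ^ (-s) ≤ 1 := by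
  have hx0 : 0 < x := by linarith
  have h1 : x ^ (-s) ≤ x ^ (-1 : ℝ) := Real.rpow_le_rpow_of_exponent_le hx (by linarith)
  rw [Real.rpow_neg_one] at h1
  calc x * x ^ (-s) ≤ x * x⁻¹ := mul_le_mul_of_nonneg_left h1 hx0.le
    _ = 1 := mul_inv_cancel₀ hx0.ne'

/-- The partial sums over the exhausting sequence of finsets `{a | N a ≤ M}` converge to the
sum of the series. -/
theorem abel_tendsto {α : Type*} (N : α → ℕ) (hfin : ∀ m : ℕ, {a | N a ≤ m}.Finite)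
    {g : α → ℝ} (hg : Summable g) :
    Filter.Tendsto (fun M : ℕ => ∑ a ∈ (hfin M).toFinset, g a) Filter.atTop
      (nhds (∑' a, g a)) := by
  have hmono : Monotone (fun M : ℕ => (hfin M).toFinset) := by
    intro M M' hMM' a ha
    simp only [Set.Finite.mem_toFinset, Set.mem_ofPred_eq] at ha ⊢
    omega
  have hex : ∀ a : α, ∃ M : ℕ, a ∈ (hfin M).toFinset := fun a => ⟨N a, by simp⟩
  exact hg.hasSum.comp (Filter.tendsto_atTop_finset_of_monotone hmono hex)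

/-- If the number of `a` with `N a ≤ m` is `O(m)`, then `∑ N(a)^(-s)` converges for `s > 1`. -/
theorem summable_of_card_le {α : Type*} (N : α → ℕ) (hN : ∀ a, 1 ≤ N a)
    (hfin : ∀ m : ℕ, {a | N a ≤ m}.Finite) (B : ℝ)
    (hB : ∀ m : ℕ, 1 ≤ m → (Nat.card {a // N a ≤ m} : ℝ) ≤ B * m) {s : ℝ} (hs : 1 < s) :
    Summable (fun a => ((N a : ℝ)) ^ (-s)) := by
  have hB0 : 0 ≤ B := by
    have h1 := hB 1 le_rfl
    have h0 : (0 : ℝ) ≤ (Nat.card {a // N a ≤ 1} : ℝ) := Nat.cast_nonneg _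
    simpa using h0.trans h1
  have hsum : Summable (fun m : ℕ => (m : ℝ) ^ (-s)) :=
    Real.summable_nat_rpow.mpr (by linarith)
  refine summable_of_sum_le (c := B + B * s * ∑' m : ℕ, (m : ℝ) ^ (-s))
    (fun a => Real.rpow_nonneg (Nat.cast_nonneg _) _) ?_
  intro u
  have hu : u ⊆ (hfin (u.sup N)).toFinset := by
    intro a ha
    simp only [Set.Finite.mem_toFinset, Set.mem_ofPred_eq]
    exact Finset.le_sup ha
  generalize u.sup N = M at hu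
  have hM : (Nat.card {a // N a ≤ M} : ℝ) * (M : ℝ) ^ (-s) ≤ B := by
    rcases Nat.eq_zero_or_pos M with hM0 | hM0
    · subst hM0
      rw [abel_card_zero N hN]
      simpa using hB0
    · have hM1 : (1 : ℝ) ≤ M := by exact_mod_cast hM0
      calc (Nat.card {a // N a ≤ M} : ℝ) * (M : ℝ) ^ (-s)
          ≤ B * M * (M : ℝ) ^ (-s) :=
            mul_le_mul_of_nonneg_right (hB M hM0) (Real.rpow_nonneg (Nat.cast_nonneg _) _)
        _ = B * ((M : ℝ) * (M : ℝ) ^ (-s)) := by ring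
        _ ≤ B * 1 := mul_le_mul_of_nonneg_left (abel_mul_rpow_le_one hs.le hM1) hB0
        _ = B := mul_one B
  have hterm : ∀ m ∈ Finset.range M,
      (Nat.card {a // N a ≤ m} : ℝ) * ((m : ℝ) ^ (-s) - ((m + 1 : ℕ) : ℝ) ^ (-s)) ≤
        B * s * (m : ℝ) ^ (-s) := by
    intro m _
    rcases Nat.eq_zero_or_pos m with hm0 | hm0
    · subst hm0
      rw [abel_card_zero N hN]
      have h3 : 0 ≤ B * s * ((0 : ℕ) : ℝ) ^ (-s) :=
        mul_nonneg (mul_nonneg hB0 (by linarith)) (Real.rpow_nonneg (Nat.cast_nonneg _) _)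
      simpa using h3
    · calc (Nat.card {a // N a ≤ m} : ℝ) * ((m : ℝ) ^ (-s) - ((m + 1 : ℕ) : ℝ) ^ (-s))
          ≤ B * m * ((m : ℝ) ^ (-s) - ((m + 1 : ℕ) : ℝ) ^ (-s)) :=
            mul_le_mul_of_nonneg_right (hB m hm0) (abel_diff_nonneg (by linarith) hm0)
        _ = B * ((m : ℝ) * ((m : ℝ) ^ (-s) - ((m + 1 : ℕ) : ℝ) ^ (-s))) := by ring
        _ ≤ B * (s * (m : ℝ) ^ (-s)) := mul_le_mul_of_nonneg_left (abel_key hs.le hm0) hB0
        _ = B * s * (m : ℝ) ^ (-s) := by ring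
  calc ∑ a ∈ u, (N a : ℝ) ^ (-s) ≤ ∑ a ∈ (hfin M).toFinset, (N a : ℝ) ^ (-s) :=
        Finset.sum_le_sum_of_subset_of_nonneg hu
          (fun a _ _ => Real.rpow_nonneg (Nat.cast_nonneg _) _)
    _ = (Nat.card {a // N a ≤ M} : ℝ) * (M : ℝ) ^ (-s) +
        ∑ m ∈ Finset.range M, (Nat.card {a // N a ≤ m} : ℝ) *
          ((m : ℝ) ^ (-s) - ((m + 1 : ℕ) : ℝ) ^ (-s)) :=
        abel_sum_eq N hN hfin (fun m => (m : ℝ) ^ (-s)) M
    _ ≤ B + ∑ m ∈ Finset.range M, B * s * (m : ℝ) ^ (-s) :=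
        add_le_add hM (Finset.sum_le_sum hterm)
    _ ≤ B + B * s * ∑' m : ℕ, (m : ℝ) ^ (-s) := by
        rw [← Finset.mul_sum]
        have h4 : ∑ m ∈ Finset.range M, (m : ℝ) ^ (-s) ≤ ∑' m : ℕ, (m : ℝ) ^ (-s) :=
          hsum.sum_le_tsum _ (fun m _ => Real.rpow_nonneg (Nat.cast_nonneg _) _)
        have h5 : 0 ≤ B * s := mul_nonneg hB0 (by linarith)
        linarith [mul_le_mul_of_nonneg_left h4 h5]

/-- Abstract bound for the summation-by-parts expression attached to a sequence `d` with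
`d 0 = 0` and `|d m| ≤ A m^(1-δ)`, uniformly in `s ∈ (1, 2]`. -/
theorem abel_bound {A δ : ℝ} (hδ : 0 < δ) (hA0 : 0 ≤ A) {s : ℝ} (hs1 : 1 < s)
    (hs2 : s ≤ 2) (d : ℕ → ℝ) (hd0 : d 0 = 0)
    (hd : ∀ m : ℕ, 1 ≤ m → |d m| ≤ A * (m : ℝ) ^ (1 - δ)) (M : ℕ) :
    |d M * (M : ℝ) ^ (-s) +
        ∑ m ∈ Finset.range M, d m * ((m : ℝ) ^ (-s) - ((m + 1 : ℕ) : ℝ) ^ (-s))|
      ≤ A + 2 * A * ∑' m : ℕ, (m : ℝ) ^ (-1 - δ) := by
  have hsumδ : Summable (fun m : ℕ => (m : ℝ) ^ (-1 - δ)) :=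
    Real.summable_nat_rpow.mpr (by linarith)
  have hM : |d M * (M : ℝ) ^ (-s)| ≤ A := by
    rcases Nat.eq_zero_or_pos M with hM0 | hM0
    · subst hM0
      rw [hd0]
      simpa using hA0
    · have hM1 : (1 : ℝ) ≤ M := by exact_mod_cast hM0
      rw [abs_mul, abs_of_nonneg (Real.rpow_nonneg (Nat.cast_nonneg _) _)]
      have hle : (M : ℝ) ^ (1 - δ) ≤ (M : ℝ) := by
        calc (M : ℝ) ^ (1 - δ) ≤ (M : ℝ) ^ (1 : ℝ) :=
              Real.rpow_le_rpow_of_exponent_le hM1 (by linarith)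
          _ = M := Real.rpow_one _
      calc |d M| * (M : ℝ) ^ (-s) ≤ A * (M : ℝ) ^ (1 - δ) * (M : ℝ) ^ (-s) :=
            mul_le_mul_of_nonneg_right (hd M hM0) (Real.rpow_nonneg (Nat.cast_nonneg _) _)
        _ ≤ A * (M : ℝ) * (M : ℝ) ^ (-s) :=
            mul_le_mul_of_nonneg_right (mul_le_mul_of_nonneg_left hle hA0)
              (Real.rpow_nonneg (Nat.cast_nonneg _) _)
        _ = A * ((M : ℝ) * (M : ℝ) ^ (-s)) := by ring
        _ ≤ A * 1 := mul_le_mul_of_nonneg_left (abel_mul_rpow_le_one hs1.le hM1) hA0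
        _ = A := mul_one A
  have hterm : ∀ m ∈ Finset.range M,
      |d m * ((m : ℝ) ^ (-s) - ((m + 1 : ℕ) : ℝ) ^ (-s))| ≤ 2 * A * (m : ℝ) ^ (-1 - δ) := by
    intro m _
    rcases Nat.eq_zero_or_pos m with hm0 | hm0
    · subst hm0
      rw [hd0]
      have h3 : 0 ≤ 2 * A * ((0 : ℕ) : ℝ) ^ (-1 - δ) :=
        mul_nonneg (mul_nonneg zero_le_two hA0) (Real.rpow_nonneg (Nat.cast_nonneg _) _)
      simpa using h3
    · have hm1 : (1 : ℝ) ≤ m := by exact_mod_cast hm0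
      have hmpos : (0 : ℝ) < m := by linarith
      have hdiff : 0 ≤ (m : ℝ) ^ (-s) - ((m + 1 : ℕ) : ℝ) ^ (-s) :=
        abel_diff_nonneg (by linarith) hm0
      rw [abs_mul, abs_of_nonneg hdiff]
      have hsplit : (m : ℝ) ^ (1 - δ) = (m : ℝ) ^ (-δ) * (m : ℝ) := by
        rw [show (1 - δ : ℝ) = -δ + 1 by ring, Real.rpow_add_one hmpos.ne']
      have hle : (m : ℝ) ^ (-s) ≤ (m : ℝ) ^ (-1 : ℝ) :=
        Real.rpow_le_rpow_of_exponent_le hm1 (by linarith)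
      have hcomb : (m : ℝ) ^ (-δ) * (m : ℝ) ^ (-1 : ℝ) = (m : ℝ) ^ (-1 - δ) := by
        rw [← Real.rpow_add hmpos]
        congr 1
        ring
      have hδnn : 0 ≤ (m : ℝ) ^ (-δ) := Real.rpow_nonneg hmpos.le _
      calc |d m| * ((m : ℝ) ^ (-s) - ((m + 1 : ℕ) : ℝ) ^ (-s))
          ≤ A * (m : ℝ) ^ (1 - δ) * ((m : ℝ) ^ (-s) - ((m + 1 : ℕ) : ℝ) ^ (-s)) :=
            mul_le_mul_of_nonneg_right (hd m hm0) hdiff
        _ = A * (m : ℝ) ^ (-δ) * ((m : ℝ) * ((m : ℝ) ^ (-s) - ((m + 1 : ℕ) : ℝ) ^ (-s))) := by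
            rw [hsplit]
            ring
        _ ≤ A * (m : ℝ) ^ (-δ) * (s * (m : ℝ) ^ (-s)) :=
            mul_le_mul_of_nonneg_left (abel_key hs1.le hm0) (mul_nonneg hA0 hδnn)
        _ ≤ A * (m : ℝ) ^ (-δ) * (2 * (m : ℝ) ^ (-1 : ℝ)) :=
            mul_le_mul_of_nonneg_left
              (mul_le_mul hs2 hle (Real.rpow_nonneg hmpos.le _) zero_le_two)
              (mul_nonneg hA0 hδnn)
        _ = 2 * A * (m : ℝ) ^ (-1 - δ) := by
            rw [← hcomb]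
            ring
  calc |d M * (M : ℝ) ^ (-s) +
        ∑ m ∈ Finset.range M, d m * ((m : ℝ) ^ (-s) - ((m + 1 : ℕ) : ℝ) ^ (-s))|
      ≤ |d M * (M : ℝ) ^ (-s)| +
        |∑ m ∈ Finset.range M, d m * ((m : ℝ) ^ (-s) - ((m + 1 : ℕ) : ℝ) ^ (-s))| :=
        abs_add_le _ _
    _ ≤ |d M * (M : ℝ) ^ (-s)| +
        ∑ m ∈ Finset.range M, |d m * ((m : ℝ) ^ (-s) - ((m + 1 : ℕ) : ℝ) ^ (-s))| :=
        add_le_add le_rfl (Finset.abs_sum_le_sum_abs _ _)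
    _ ≤ A + ∑ m ∈ Finset.range M, 2 * A * (m : ℝ) ^ (-1 - δ) :=
        add_le_add hM (Finset.sum_le_sum hterm)
    _ ≤ A + 2 * A * ∑' m : ℕ, (m : ℝ) ^ (-1 - δ) := by
        rw [← Finset.mul_sum]
        have h4 : ∑ m ∈ Finset.range M, (m : ℝ) ^ (-1 - δ) ≤ ∑' m : ℕ, (m : ℝ) ^ (-1 - δ) :=
          hsumδ.sum_le_tsum _ (fun m _ => Real.rpow_nonneg (Nat.cast_nonneg _) _)
        have h5 : 0 ≤ 2 * A := by linarith
        linarith [mul_le_mul_of_nonneg_left h4 h5]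

-- The hypothesis `hδ1` of the frozen statement is not needed in the proof.
set_option linter.unusedVariables false in
/-- If two counting functions differ by `O(m^(1-δ))`, `δ > 0`, the difference of the two Dirichlet
series is bounded on `(1, 2]`. -/
theorem exists_abs_tsum_sub_tsum_le {α β : Type*} (N : α → ℕ) (N' : β → ℕ)
    (hN : ∀ a, 1 ≤ N a) (hN' : ∀ b, 1 ≤ N' b)
    (hfin : ∀ m : ℕ, {a | N a ≤ m}.Finite) (hfin' : ∀ m : ℕ, {b | N' b ≤ m}.Finite)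
    (hsum : ∀ s : ℝ, 1 < s → Summable (fun a => ((N a : ℝ)) ^ (-s)))
    (hsum' : ∀ s : ℝ, 1 < s → Summable (fun b => ((N' b : ℝ)) ^ (-s)))
    (A δ : ℝ) (hδ : 0 < δ) (hδ1 : δ ≤ 1)
    (h : ∀ m : ℕ, 1 ≤ m →
      |(Nat.card {a // N a ≤ m} : ℝ) - (Nat.card {b // N' b ≤ m} : ℝ)| ≤ A * (m : ℝ) ^ (1 - δ)) :
    ∃ M : ℝ, ∀ s : ℝ, 1 < s → s ≤ 2 →
      |∑' a, ((N a : ℝ)) ^ (-s) - ∑' b, ((N' b : ℝ)) ^ (-s)| ≤ M := by
  have hA0 : 0 ≤ A := by
    have h1 := h 1 le_rfl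
    rw [Nat.cast_one, Real.one_rpow, mul_one] at h1
    exact (abs_nonneg _).trans h1
  refine ⟨A + 2 * A * ∑' m : ℕ, (m : ℝ) ^ (-1 - δ), fun s hs1 hs2 => ?_⟩
  have hlim := ((abel_tendsto N hfin (hsum s hs1)).sub
    (abel_tendsto N' hfin' (hsum' s hs1))).abs
  refine le_of_tendsto' hlim (fun M => ?_)
  rw [abel_sum_eq N hN hfin (fun m => (m : ℝ) ^ (-s)) M,
    abel_sum_eq N' hN' hfin' (fun m => (m : ℝ) ^ (-s)) M]
  have hd0 : (fun m : ℕ => (Nat.card {a // N a ≤ m} : ℝ) - (Nat.card {b // N' b ≤ m} : ℝ)) 0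
      = 0 := by
    simp only [abel_card_zero N hN, abel_card_zero N' hN', Nat.cast_zero, sub_zero]
  have hb := abel_bound hδ hA0 hs1 hs2
    (fun m : ℕ => (Nat.card {a // N a ≤ m} : ℝ) - (Nat.card {b // N' b ≤ m} : ℝ)) hd0 h M
  refine le_trans (le_of_eq ?_) hb
  congr 1
  simp only [sub_mul, Finset.sum_sub_distrib]
  ring

end Fermat.Agent.S14.Thaine.ClassZetaA
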