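/-
S14, Route T, block ClassZetaA (sub-architect helper11): quantitative lattice point counting.
Shared definitions.  FROZEN (owner: helper11).
-/
import Mathlib

set_option autoImplicit false

namespace Fermat.Agent.S14.Thaine.ClassZetaA

open scoped NNReal

/-- `B` is covered by finitely many images of the unit cube `[0,1]^d` under maps that are
Lipschitz on the cube (all with the same constant). -/
def LipCovered {E : Type*} [PseudoEMetricSpace E] (d : ℕ) (B : Set E) : Prop :=
  ∃ (m : ℕ) (L : ℝ≥0) (ψ : Fin m → (Fin d → ℝ) → E),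
    (∀ a, LipschitzOnWith L (ψ a) (Set.Icc 0 1)) ∧ B ⊆ ⋃ a, ψ a '' Set.Icc 0 1

/-- The index of the unit cube `∏ᵢ [zᵢ, zᵢ + 1)` containing `y`. -/
noncomputable def cubeIdx {ι : Type*} (y : ι → ℝ) : ι → ℤ := fun i => ⌊y i⌋

/-- The integer points of `ι → ℝ`. -/
def intPts (ι : Type*) : Set (ι → ℝ) := Set.range fun (z : ι → ℤ) (i : ι) => (z i : ℝ)

end Fermat.Agent.S14.Thaine.ClassZetaA
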