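/-
S14, Route T, block ClassZetaA.  Integer points versus volume: the error is bounded by the number
of unit cubes meeting the frontier.
FROZEN STATEMENTS (helper lemmas have the prefix `boxCount_`).
-/
import Mathlib
import Fermat.Agent.S14.Thaine.ClassZetaA.Defs

set_option autoImplicit false

namespace Fermat.Agent.S14.Thaine.ClassZetaA

open MeasureTheory Bornology

variable {ι : Type*} [Fintype ι]

/-- A preconnected set meeting both a set and its complement meets the frontier of that set. -/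
theorem boxCount_inter_frontier_nonempty {X : Type*} [TopologicalSpace X] {t s : Set X}
    (ht : IsPreconnected t) (h1 : (t ∩ s).Nonempty) (h2 : (t ∩ sᶜ).Nonempty) :
    (t ∩ frontier s).Nonempty := by
  by_contra hne
  rw [Set.not_nonempty_iff_eq_empty] at hne
  obtain ⟨x, hxt, hxs⟩ := h1
  obtain ⟨y, hyt, hys⟩ := h2
  have hx : x ∈ interior s := by
    by_contra hxi
    have h : x ∈ t ∩ frontier s := ⟨hxt, subset_closure hxs, hxi⟩
    rw [hne] at h
    exact h
  have hy : y ∈ (closure s)ᶜ := by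
    intro hyc
    have h : y ∈ t ∩ frontier s := ⟨hyt, hyc, fun hyi => hys (interior_subset hyi)⟩
    rw [hne] at h
    exact h
  have hcov : t ⊆ interior s ∪ (closure s)ᶜ := by
    intro w hwt
    by_cases hwi : w ∈ interior s
    · exact Or.inl hwi
    · right
      intro hwc
      have h : w ∈ t ∩ frontier s := ⟨hwt, hwc, hwi⟩
      rw [hne] at h
      exact h
  obtain ⟨w, -, hw1, hw2⟩ :=
    ht _ _ isOpen_interior isClosed_closure.isOpen_compl hcov ⟨x, hxt, hx⟩ ⟨y, hyt, hy⟩
  exact hw2 (subset_closure (interior_subset hw1))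

/-- The cube index of an integer point is the point itself. -/
theorem boxCount_cubeIdx_coe {κ : Type*} (z : κ → ℤ) : cubeIdx (fun i => (z i : ℝ)) = z := by
  funext i
  simp [cubeIdx]

/-- The fibre of `cubeIdx` over `z` is the half-open unit cube `∏ᵢ [zᵢ, zᵢ + 1)`. -/
theorem boxCount_preimage_eq {κ : Type*} (z : κ → ℤ) :
    (cubeIdx ⁻¹' {z} : Set (κ → ℝ)) = Set.pi Set.univ (fun i => Set.Ico (z i : ℝ) (z i + 1)) := by
  ext y
  simp only [Set.mem_preimage, Set.mem_singleton_iff, Set.mem_pi, Set.mem_univ, true_imp_iff,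
    Set.mem_Ico]
  constructor
  · rintro rfl i
    exact ⟨Int.floor_le _, Int.lt_floor_add_one _⟩
  · intro h
    funext i
    exact Int.floor_eq_iff.2 (h i)

theorem boxCount_measurableSet (z : ι → ℤ) : MeasurableSet (cubeIdx ⁻¹' {z} : Set (ι → ℝ)) := by
  rw [boxCount_preimage_eq]
  exact MeasurableSet.univ_pi fun i => measurableSet_Ico

theorem boxCount_volume (z : ι → ℤ) : volume (cubeIdx ⁻¹' {z} : Set (ι → ℝ)) = 1 := by
  rw [boxCount_preimage_eq, Real.volume_pi_Ico]
  simp

theorem boxCount_isPreconnected {κ : Type*} (z : κ → ℤ) :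
    IsPreconnected (cubeIdx ⁻¹' {z} : Set (κ → ℝ)) := by
  rw [boxCount_preimage_eq]
  exact (convex_pi fun i _ => convex_Ico _ _).isPreconnected

/-- The fibres of `cubeIdx` are pairwise disjoint. -/
theorem boxCount_pairwiseDisjoint {κ : Type*} (s : Set (κ → ℤ)) :
    s.PairwiseDisjoint (fun z => (cubeIdx ⁻¹' {z} : Set (κ → ℝ))) := by
  intro z _ z' _ hzz'
  exact Disjoint.preimage _ (Set.disjoint_singleton.2 hzz')

/-- A finite union of unit cubes has volume the number of cubes. -/
theorem boxCount_volume_biUnion (s : Finset (ι → ℤ)) :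
    volume (⋃ z ∈ s, (cubeIdx ⁻¹' {z} : Set (ι → ℝ))) = s.card := by
  rw [measure_biUnion_finset (boxCount_pairwiseDisjoint _) (fun z _ => boxCount_measurableSet z)]
  simp [boxCount_volume]

theorem boxCount_volume_real_biUnion (s : Finset (ι → ℤ)) :
    volume.real (⋃ z ∈ s, (cubeIdx ⁻¹' {z} : Set (ι → ℝ))) = s.card := by
  rw [Measure.real, boxCount_volume_biUnion, ENNReal.toReal_natCast]

theorem boxCount_volume_biUnion_ne_top (s : Finset (ι → ℤ)) :
    volume (⋃ z ∈ s, (cubeIdx ⁻¹' {z} : Set (ι → ℝ))) ≠ ⊤ := by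
  rw [boxCount_volume_biUnion]
  exact ENNReal.natCast_ne_top _

theorem finite_cubeIdx_image {S : Set (ι → ℝ)} (hb : IsBounded S) : (cubeIdx '' S).Finite := by
  obtain ⟨R, hR⟩ := hb.subset_closedBall 0
  have hfin : (Set.pi Set.univ (fun _ : ι => Set.Icc (-⌈R⌉ - 1) ⌈R⌉)).Finite :=
    Set.Finite.pi fun _ => Set.finite_Icc _ _
  refine hfin.subset ?_
  rintro _ ⟨y, hy, rfl⟩ i -
  have h1 : ‖y‖ ≤ R := by simpa using hR hy
  have h2 : |y i| ≤ R := (norm_le_pi_norm y i).trans h1
  have h3 := abs_le.1 h2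
  have h4 := Int.floor_le (y i)
  have h5 := Int.lt_floor_add_one (y i)
  have h6 := Int.le_ceil R
  simp only [cubeIdx, Set.mem_Icc]
  constructor
  · have h : ((-⌈R⌉ - 1 : ℤ) : ℝ) < ⌊y i⌋ := by
      push_cast
      linarith
    exact_mod_cast h.le
  · have h : ((⌊y i⌋ : ℤ) : ℝ) ≤ ⌈R⌉ := by linarith
    exact_mod_cast h

/-- For a bounded measurable set `S`, the number of integer points of `S` differs from the volume
of `S` by at most the number of unit cubes `∏ᵢ [zᵢ, zᵢ + 1)` that meet the frontier of `S`. -/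
theorem abs_card_sub_volume_le (S : Set (ι → ℝ)) (hb : IsBounded S) (hm : MeasurableSet S) :
    |(Nat.card ↑(S ∩ intPts ι) : ℝ) - volume.real S| ≤ ((cubeIdx '' frontier S).ncard : ℝ) := by
  classical
  -- the integer points of `S`, as integer vectors
  have hPsub : {z : ι → ℤ | (fun i => (z i : ℝ)) ∈ S} ⊆ cubeIdx '' S := by
    intro z hz
    exact ⟨_, hz, boxCount_cubeIdx_coe z⟩
  have hPfin : {z : ι → ℤ | (fun i => (z i : ℝ)) ∈ S}.Finite :=
    (finite_cubeIdx_image hb).subset hPsub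
  have hTfin : (cubeIdx '' frontier S).Finite :=
    finite_cubeIdx_image (hb.closure.subset frontier_subset_closure)
  -- the number of integer points
  have hcard : Nat.card ↑(S ∩ intPts ι) = hPfin.toFinset.card := by
    have himg : S ∩ intPts ι =
        (fun (z : ι → ℤ) (i : ι) => (z i : ℝ)) '' {z : ι → ℤ | (fun i => (z i : ℝ)) ∈ S} := by
      ext y
      constructor
      · rintro ⟨hyS, z, rfl⟩
        exact ⟨z, hyS, rfl⟩
      · rintro ⟨z, hz, rfl⟩
        exact ⟨hz, z, rfl⟩
    have hinj : Function.Injective (fun (z : ι → ℤ) (i : ι) => (z i : ℝ)) := by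
      intro z z' h
      funext i
      exact Int.cast_injective (congrFun h i)
    rw [Nat.card_coe_set_eq, himg, Set.ncard_image_of_injective _ hinj,
      Set.ncard_eq_toFinset_card _ hPfin]
  -- the symmetric difference of `S` and the union of the cubes of its integer points is
  -- contained in the union of the cubes meeting the frontier
  have hsymm : symmDiff (⋃ z ∈ hPfin.toFinset, (cubeIdx ⁻¹' {z} : Set (ι → ℝ))) S ⊆
      ⋃ z ∈ hTfin.toFinset, (cubeIdx ⁻¹' {z} : Set (ι → ℝ)) := by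
    intro y hy
    have hmeet : ((cubeIdx ⁻¹' {cubeIdx y} : Set (ι → ℝ)) ∩ S).Nonempty ∧
        ((cubeIdx ⁻¹' {cubeIdx y} : Set (ι → ℝ)) ∩ Sᶜ).Nonempty := by
      rcases hy with ⟨hyU, hyS⟩ | ⟨hyS, hyU⟩
      · simp only [Set.mem_iUnion] at hyU
        obtain ⟨z, hz, hyz⟩ := hyU
        have hzy : cubeIdx y = z := hyz
        have hzP : (fun i => (z i : ℝ)) ∈ S := hPfin.mem_toFinset.1 hz
        refine ⟨⟨fun i => (z i : ℝ), ?_, hzP⟩, ⟨y, rfl, hyS⟩⟩
        rw [hzy]
        exact boxCount_cubeIdx_coe z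
      · refine ⟨⟨y, rfl, hyS⟩, ⟨fun i => (cubeIdx y i : ℝ), boxCount_cubeIdx_coe _, ?_⟩⟩
        intro hS'
        exact hyU (Set.mem_biUnion (hPfin.mem_toFinset.2 hS') rfl)
    obtain ⟨w, hwQ, hwF⟩ :=
      boxCount_inter_frontier_nonempty (boxCount_isPreconnected _) hmeet.1 hmeet.2
    have hwy : cubeIdx w = cubeIdx y := hwQ
    exact Set.mem_biUnion (hTfin.mem_toFinset.2 ⟨w, hwF, hwy⟩) rfl
  have hUm : MeasurableSet (⋃ z ∈ hPfin.toFinset, (cubeIdx ⁻¹' {z} : Set (ι → ℝ))) :=
    Finset.measurableSet_biUnion _ (fun z _ => boxCount_measurableSet z)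
  calc |(Nat.card ↑(S ∩ intPts ι) : ℝ) - volume.real S|
      = |volume.real (⋃ z ∈ hPfin.toFinset, (cubeIdx ⁻¹' {z} : Set (ι → ℝ))) - volume.real S| := by
        rw [hcard, boxCount_volume_real_biUnion]
    _ ≤ volume.real (symmDiff (⋃ z ∈ hPfin.toFinset, (cubeIdx ⁻¹' {z} : Set (ι → ℝ))) S) :=
        abs_measureReal_sub_le_measureReal_symmDiff' hUm.nullMeasurableSet hm.nullMeasurableSet
          (boxCount_volume_biUnion_ne_top _) hb.measure_lt_top.ne
    _ ≤ volume.real (⋃ z ∈ hTfin.toFinset, (cubeIdx ⁻¹' {z} : Set (ι → ℝ))) :=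
        measureReal_mono hsymm (boxCount_volume_biUnion_ne_top _)
    _ = (hTfin.toFinset.card : ℝ) := boxCount_volume_real_biUnion _
    _ = ((cubeIdx '' frontier S).ncard : ℝ) := by
        rw [Set.ncard_eq_toFinset_card _ hTfin]

end Fermat.Agent.S14.Thaine.ClassZetaA
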