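/-
S14, Route T, block ClassZetaA.  Closure properties of `LipCovered`.
FROZEN STATEMENTS (helper lemmas carry the prefix `cover_`).  All proofs complete.
-/
import Mathlib
import Fermat.Agent.S14.Thaine.ClassZetaA.Defs

set_option autoImplicit false

namespace Fermat.Agent.S14.Thaine.ClassZetaA

open scoped NNReal

variable {E E' : Type*} [PseudoEMetricSpace E] [PseudoEMetricSpace E'] {d : ℕ}

theorem LipCovered.mono {A B : Set E} (h : LipCovered d B) (hAB : A ⊆ B) : LipCovered d A := by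
  obtain ⟨m, L, ψ, hψ, hB⟩ := h
  exact ⟨m, L, ψ, hψ, hAB.trans hB⟩

theorem LipCovered.union {A B : Set E} (hA : LipCovered d A) (hB : LipCovered d B) :
    LipCovered d (A ∪ B) := by
  obtain ⟨m₁, L₁, ψ₁, hψ₁, hA⟩ := hA
  obtain ⟨m₂, L₂, ψ₂, hψ₂, hB⟩ := hB
  refine ⟨m₁ + m₂, max L₁ L₂, Fin.append ψ₁ ψ₂, ?_, ?_⟩
  · intro a
    refine Fin.addCases (fun i => ?_) (fun j => ?_) a
    · rw [Fin.append_left]
      exact (hψ₁ i).weaken (le_max_left _ _)
    · rw [Fin.append_right]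
      exact (hψ₂ j).weaken (le_max_right _ _)
  · rintro x (hx | hx)
    · obtain ⟨i, hi⟩ := Set.mem_iUnion.1 (hA hx)
      refine Set.mem_iUnion.2 ⟨Fin.castAdd m₂ i, ?_⟩
      rw [Fin.append_left]
      exact hi
    · obtain ⟨j, hj⟩ := Set.mem_iUnion.1 (hB hx)
      refine Set.mem_iUnion.2 ⟨Fin.natAdd m₁ j, ?_⟩
      rw [Fin.append_right]
      exact hj

/-- The empty set is covered (by the empty family). -/
theorem cover_empty : LipCovered d (∅ : Set E) :=
  ⟨0, 0, fun a => a.elim0, fun a => a.elim0, Set.empty_subset _⟩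

theorem LipCovered.iUnion {α : Type*} [Finite α] {B : α → Set E} (h : ∀ a, LipCovered d (B a)) :
    LipCovered d (⋃ a, B a) := by
  revert B
  refine Finite.induction_empty_option
    (P := fun α => ∀ {B : α → Set E}, (∀ a, LipCovered d (B a)) → LipCovered d (⋃ a, B a))
    ?_ ?_ ?_ α
  · intro α β e hα B hB
    have h1 : LipCovered d (⋃ a, B (e a)) := hα (B := fun a => B (e a)) (fun a => hB (e a))
    refine h1.mono ?_
    intro x hx
    obtain ⟨b, hb⟩ := Set.mem_iUnion.1 hx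
    refine Set.mem_iUnion.2 ⟨e.symm b, ?_⟩
    rw [Equiv.apply_symm_apply]
    exact hb
  · intro B _
    refine cover_empty.mono ?_
    intro x hx
    obtain ⟨b, _⟩ := Set.mem_iUnion.1 hx
    exact b.elim
  · intro α _ hα B hB
    have h1 : LipCovered d (⋃ a, B (some a)) :=
      hα (B := fun a => B (some a)) (fun a => hB (some a))
    have h2 : LipCovered d (B none) := hB none
    refine (h1.union h2).mono ?_
    intro x hx
    obtain ⟨b, hb⟩ := Set.mem_iUnion.1 hx
    cases b with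
    | none => exact Or.inr hb
    | some a => exact Or.inl (Set.mem_iUnion.2 ⟨a, hb⟩)

theorem LipCovered.image {B : Set E} (h : LipCovered d B) {f : E → E'} {Lf : ℝ≥0}
    (hf : LipschitzWith Lf f) : LipCovered d (f '' B) := by
  obtain ⟨m, L, ψ, hψ, hB⟩ := h
  refine ⟨m, Lf * L, fun a => f ∘ ψ a, fun a => hf.comp_lipschitzOnWith (hψ a), ?_⟩
  rintro _ ⟨x, hx, rfl⟩
  obtain ⟨a, u, hu, rfl⟩ := Set.mem_iUnion.1 (hB hx)
  exact Set.mem_iUnion.2 ⟨a, u, hu, rfl⟩

theorem LipCovered.singleton (x : E) : LipCovered d ({x} : Set E) := by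
  refine ⟨1, 0, fun _ _ => x, fun _ => (LipschitzWith.const x).lipschitzOnWith, ?_⟩
  rintro _ rfl
  exact Set.mem_iUnion.2 ⟨0, 0, ⟨le_rfl, fun _ => zero_le_one⟩, rfl⟩

/-- A Lipschitz image of the unit cube of `κ → ℝ`, `κ` any finite type with `d` elements. -/
theorem LipCovered.of_fintype {κ : Type*} [Fintype κ] (hκ : Fintype.card κ = d)
    (ψ : (κ → ℝ) → E) (L : ℝ≥0) (hψ : LipschitzOnWith L ψ (Set.Icc 0 1)) :
    LipCovered d (ψ '' Set.Icc 0 1) := by
  let e : κ ≃ Fin d := Fintype.equivFinOfCardEq hκ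
  let r : (Fin d → ℝ) → (κ → ℝ) := fun u k => u (e k)
  have hr : LipschitzWith 1 r := by
    intro u v
    rw [ENNReal.coe_one, one_mul]
    exact edist_pi_le_iff.2 fun k => edist_le_pi_edist u v (e k)
  have hmaps : Set.MapsTo r (Set.Icc 0 1) (Set.Icc 0 1) := by
    intro u hu
    exact ⟨fun k => hu.1 (e k), fun k => hu.2 (e k)⟩
  refine ⟨1, L * 1, fun _ => ψ ∘ r, fun _ => hψ.comp hr.lipschitzOnWith hmaps, ?_⟩
  rintro _ ⟨v, hv, rfl⟩
  refine Set.mem_iUnion.2 ⟨0, fun i => v (e.symm i),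
    ⟨fun i => hv.1 (e.symm i), fun i => hv.2 (e.symm i)⟩, ?_⟩
  have hrv : r (fun i => v (e.symm i)) = v := by
    funext k
    simp only [r, Equiv.symm_apply_apply]
  simp only [Function.comp_apply, hrv]

end Fermat.Agent.S14.Thaine.ClassZetaA
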