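/-
S14, Route T, block ClassZetaA.  A dilated Lipschitz image of the unit cube `[0,1]^d` meets at most
`3^n (⌈t L⌉ + 1)^d` unit cubes.
FROZEN STATEMENT (helper lemmas have the prefix `cubeCount_`).
-/
import Mathlib
import Fermat.Agent.S14.Thaine.ClassZetaA.Defs

set_option autoImplicit false

namespace Fermat.Agent.S14.Thaine.ClassZetaA

open scoped NNReal Pointwise

variable {ι : Type*} [Fintype ι]

/-- Every point of `[0,1]` is within `1/k` of a grid point `m/k` with `m < k`. -/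
theorem cubeCount_grid (k : ℕ) (hk : 0 < k) (x : ℝ) (hx0 : 0 ≤ x) (hx1 : x ≤ 1) :
    ∃ m : Fin k, |x - ((m : ℕ) : ℝ) / k| ≤ 1 / k := by
  have hk' : (0 : ℝ) < k := by exact_mod_cast hk
  have key : ∀ m : ℕ, |(k : ℝ) * x - m| ≤ 1 → |x - (m : ℝ) / k| ≤ 1 / k := by
    intro m hm
    have h : x - (m : ℝ) / k = ((k : ℝ) * x - m) / k := by
      field_simp
    rw [h, abs_div, abs_of_pos hk']
    exact div_le_div_of_nonneg_right hm hk'.le
  by_cases h : ⌊(k : ℝ) * x⌋₊ < k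
  · refine ⟨⟨⌊(k : ℝ) * x⌋₊, h⟩, key _ ?_⟩
    have h1 : (⌊(k : ℝ) * x⌋₊ : ℝ) ≤ k * x := Nat.floor_le (by positivity)
    have h2 : (k : ℝ) * x < ⌊(k : ℝ) * x⌋₊ + 1 := Nat.lt_floor_add_one _
    rw [abs_le]
    constructor <;> linarith
  · have h1 : (k : ℝ) ≤ ⌊(k : ℝ) * x⌋₊ := by exact_mod_cast not_lt.1 h
    have h2 : (⌊(k : ℝ) * x⌋₊ : ℝ) ≤ k * x := Nat.floor_le (by positivity)
    have h3 : (k : ℝ) * x ≤ k := by nlinarith
    refine ⟨⟨k - 1, Nat.sub_lt hk Nat.one_pos⟩, key _ ?_⟩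
    have h4 : ((k - 1 : ℕ) : ℝ) = (k : ℝ) - 1 := by
      rw [Nat.cast_sub hk, Nat.cast_one]
    rw [h4, abs_le]
    constructor <;> linarith

/-- Every point of the unit cube `[0,1]^d` is within `1/k` (sup distance) of a grid point with
coordinates `m/k`, `m < k`, which again lies in the unit cube. -/
theorem cubeCount_grid_pi {d : ℕ} (k : ℕ) (hk : 0 < k) (u : Fin d → ℝ)
    (hu : u ∈ Set.Icc (0 : Fin d → ℝ) 1) :
    ∃ j : Fin d → Fin k, (fun a => ((j a : ℕ) : ℝ) / k) ∈ Set.Icc (0 : Fin d → ℝ) 1 ∧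
      dist u (fun a => ((j a : ℕ) : ℝ) / k) ≤ 1 / k := by
  have hk' : (0 : ℝ) < k := by exact_mod_cast hk
  choose j hj using fun a => cubeCount_grid k hk (u a) (hu.1 a) (hu.2 a)
  refine ⟨j, ⟨fun a => ?_, fun a => ?_⟩, ?_⟩
  · change (0 : ℝ) ≤ ((j a : ℕ) : ℝ) / k
    positivity
  · change ((j a : ℕ) : ℝ) / k ≤ 1
    rw [div_le_one hk']
    exact_mod_cast (j a).2.le
  · rw [dist_pi_le_iff (by positivity)]
    intro a
    rw [Real.dist_eq]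
    exact hj a

/-- Two reals at distance at most `1` have floors differing by `-1`, `0` or `1`. -/
theorem cubeCount_floor_sub (x y : ℝ) (h : |x - y| ≤ 1) :
    ∃ ε : Fin 3, ⌊y⌋ + ((ε : ℕ) : ℤ) - 1 = ⌊x⌋ := by
  have h1 := abs_le.1 h
  have hx1 := Int.floor_le x
  have hx2 := Int.lt_floor_add_one x
  have hy1 := Int.floor_le y
  have hy2 := Int.lt_floor_add_one y
  have ha : (⌊x⌋ : ℝ) < ⌊y⌋ + 2 := by linarith
  have hb : (⌊y⌋ : ℝ) < ⌊x⌋ + 2 := by linarith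
  have ha' : ⌊x⌋ < ⌊y⌋ + 2 := by exact_mod_cast ha
  have hb' : ⌊y⌋ < ⌊x⌋ + 2 := by exact_mod_cast hb
  refine ⟨⟨(⌊x⌋ - ⌊y⌋ + 1).toNat, by omega⟩, ?_⟩
  change ⌊y⌋ + (((⌊x⌋ - ⌊y⌋ + 1).toNat : ℕ) : ℤ) - 1 = ⌊x⌋
  omega

theorem ncard_cubeIdx_image_le {d : ℕ} (ψ : (Fin d → ℝ) → (ι → ℝ)) (L : ℝ≥0)
    (hψ : LipschitzOnWith L ψ (Set.Icc 0 1)) (t : ℝ) (ht : 0 ≤ t) :
    (cubeIdx '' (t • (ψ '' Set.Icc 0 1))).Finite ∧
      (cubeIdx '' (t • (ψ '' Set.Icc 0 1))).ncard ≤ 3 ^ Fintype.card ι * (⌈t * L⌉₊ + 1) ^ d := by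
  classical
  obtain ⟨k, hk⟩ : ∃ k : ℕ, k = ⌈t * L⌉₊ + 1 := ⟨_, rfl⟩
  have hk0 : 0 < k := by omega
  have hkR : (0 : ℝ) < k := by exact_mod_cast hk0
  have htL : t * L ≤ (k : ℝ) - 1 := by
    have h1 : t * L ≤ (⌈t * L⌉₊ : ℝ) := Nat.le_ceil _
    have h2 : (k : ℝ) = (⌈t * L⌉₊ : ℝ) + 1 := by exact_mod_cast hk
    linarith
  rw [← hk]
  -- the finite family of cubes
  set G : (Fin d → Fin k) × (ι → Fin 3) → (ι → ℤ) :=
    fun p i => ⌊(t • ψ (fun a => ((p.1 a : ℕ) : ℝ) / k)) i⌋ + ((p.2 i : ℕ) : ℤ) - 1 with hG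
  have hsub : cubeIdx '' (t • (ψ '' Set.Icc 0 1)) ⊆ Set.range G := by
    rintro _ ⟨_, ⟨_, ⟨u, hu, rfl⟩, rfl⟩, rfl⟩
    obtain ⟨j, hj1, hj2⟩ := cubeCount_grid_pi k hk0 u hu
    have hdist : dist (ψ u) (ψ (fun a => ((j a : ℕ) : ℝ) / k)) ≤ L * (1 / k) :=
      (hψ.dist_le_mul u hu _ hj1).trans (mul_le_mul_of_nonneg_left hj2 L.coe_nonneg)
    have hdist' : dist (t • ψ u) (t • ψ (fun a => ((j a : ℕ) : ℝ) / k)) ≤ 1 := by
      rw [dist_smul₀, Real.norm_eq_abs, abs_of_nonneg ht]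
      calc t * dist (ψ u) (ψ (fun a => ((j a : ℕ) : ℝ) / k))
          ≤ t * (L * (1 / k)) := mul_le_mul_of_nonneg_left hdist ht
        _ = t * L / k := by ring
        _ ≤ 1 := by
          rw [div_le_one hkR]
          linarith
    have hcoord : ∀ i, |(t • ψ u) i - (t • ψ (fun a => ((j a : ℕ) : ℝ) / k)) i| ≤ 1 := by
      intro i
      rw [← Real.dist_eq]
      exact (dist_le_pi_dist _ _ i).trans hdist'
    choose ε hε using fun i => cubeCount_floor_sub _ _ (hcoord i)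
    refine ⟨(j, ε), ?_⟩
    funext i
    exact hε i
  refine ⟨(Set.finite_range G).subset hsub, ?_⟩
  calc (cubeIdx '' (t • (ψ '' Set.Icc 0 1))).ncard
      ≤ (Set.range G).ncard := Set.ncard_le_ncard hsub (Set.finite_range G)
    _ = Nat.card (Set.range G) := (Nat.card_coe_set_eq _).symm
    _ ≤ Nat.card ((Fin d → Fin k) × (ι → Fin 3)) := Finite.card_range_le G
    _ = 3 ^ Fintype.card ι * k ^ d := by
      rw [Nat.card_prod, Nat.card_fun, Nat.card_fun, Nat.card_fin, Nat.card_fin, Nat.card_fin,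
        Nat.card_eq_fintype_card, mul_comm]

end Fermat.Agent.S14.Thaine.ClassZetaA
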