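/-
S14, Route T, block ClassZetaA.  Explicit parametrisation of the frontier of
`NumberField.mixedEmbedding.fundamentalCone.normLeOne K` by maps defined on cubes.
Definitions.  FROZEN (owner: helper11).

Mathlib (NumberTheory/NumberField/CanonicalEmbedding/NormLeOne.lean):
`normLeOne K = normAtAllPlaces ⁻¹' (expMapBasis '' paramSet K)` where
`paramSet K = {x : realSpace K | x w₀ ≤ 0 ∧ ∀ w ≠ w₀, x w ∈ [0, 1)}` and
`expMapBasis x = exp (x w₀) • expMapBasis (x with w₀-coordinate 0)`.
-/
import Mathlib
import Fermat.Agent.S14.Thaine.ClassZetaA.Defs

set_option autoImplicit false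

namespace Fermat.Agent.S14.Thaine.ClassZetaA

open NumberField NumberField.InfinitePlace NumberField.mixedEmbedding
  NumberField.mixedEmbedding.fundamentalCone NumberField.Units
  NumberField.Units.dirichletUnitTheorem

open scoped Classical

noncomputable section

variable (K : Type*) [Field K] [NumberField K]

/-- Parameter index: the infinite places different from the distinguished place `w₀`. -/
abbrev PIdx : Type _ := {w : InfinitePlace K // w ≠ w₀}

/-- Faces of the (closed) parameter box `(-∞, 0] × [0,1]^{PIdx}`: `none` is the face `x w₀ = 0`;
`some (w₁, b)` is the face `x w₁ = (if b then 1 else 0)`. -/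
abbrev Face : Type _ := Option (PIdx K × Bool)

/-- The point of the parameter box with `w₀`-coordinate `0` attached to a face `f` and
parameters `u`. -/
def facePt (f : Face K) (u : PIdx K → ℝ) : realSpace K :=
  fun w => if h : w = w₀ then 0 else
    match f with
    | none => u ⟨w, h⟩
    | some (w₁, b) => if w = w₁.1 then (if b then 1 else 0) else u ⟨w, h⟩

/-- The scaling parameter (playing the role of `exp (x w₀) ∈ [0, 1]`): on the face `none` it is
`1`, on the face `some (w₁, b)` the (otherwise unused) parameter `u w₁` is used. -/
def faceScale (f : Face K) (u : PIdx K → ℝ) : ℝ :=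
  match f with
  | none => 1
  | some (w₁, _) => u w₁

/-- Parametrisation of the image under `expMapBasis` of a face of the parameter box. -/
def faceMap (f : Face K) (u : PIdx K → ℝ) : realSpace K :=
  faceScale K f u • expMapBasis (facePt K f u)

/-- Lift from absolute values to the mixed space: signs `σ` at the real places, angles
`2π θ - π` at the complex places. -/
def polarLift (σ : {w : InfinitePlace K // IsReal w} → Bool) (y : realSpace K)
    (θ : {w : InfinitePlace K // IsComplex w} → ℝ) : mixedSpace K :=
  (fun w => (if σ w then 1 else -1) * y w.1,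
   fun w => (y w.1 : ℂ) * Complex.exp (((2 * Real.pi * θ w - Real.pi : ℝ) : ℂ) * Complex.I))

/-- The maps whose images of the unit cube cover the frontier of `normLeOne K`
(together with the point `0`). -/
def bdryMap (f : Face K) (σ : {w : InfinitePlace K // IsReal w} → Bool)
    (v : (PIdx K ⊕ {w : InfinitePlace K // IsComplex w}) → ℝ) : mixedSpace K :=
  polarLift K σ (faceMap K f (v ∘ Sum.inl)) (v ∘ Sum.inr)

end

end Fermat.Agent.S14.Thaine.ClassZetaA
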