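/-
S14, Route T, block ClassZetaA.  The frontier of `normLeOne K` lies over the images of the faces.
FROZEN STATEMENTS (do not change them).  All proofs complete (worker: helper212).
-/
import Mathlib
import Fermat.Agent.S14.Thaine.ClassZetaA.Defs
import Fermat.Agent.S14.Thaine.ClassZetaA.Param

set_option autoImplicit false

namespace Fermat.Agent.S14.Thaine.ClassZetaA

open NumberField NumberField.InfinitePlace NumberField.mixedEmbedding
  NumberField.mixedEmbedding.fundamentalCone NumberField.Units
  NumberField.Units.dirichletUnitTheorem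

open scoped Classical

variable (K : Type*) [Field K] [NumberField K]

/-- Step 1 (from Mathlib's `closure_normLeOne_subset`, `subset_interior_normLeOne`,
`compactSet_eq_union`, injectivity of `expMapBasis`). -/
theorem frontier_normLeOne_subset :
    frontier (normLeOne K) ⊆ normAtAllPlaces ⁻¹'
      (expMapBasis '' (closure (paramSet K) \ interior (paramSet K)) ∪ {0}) := by
  intro x hx
  obtain ⟨hx1, hx2⟩ := hx
  have h1 := closure_normLeOne_subset K hx1
  rw [Set.mem_preimage, compactSet_eq_union] at h1
  rw [Set.mem_preimage]
  rcases h1 with ⟨a, ha, hax⟩ | h0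
  · left
    exact ⟨a, ⟨ha, fun hai => hx2 (subset_interior_normLeOne K ⟨a, hai, hax⟩)⟩, hax⟩
  · right
    exact h0

/-- Step 2: the image under `expMapBasis` of the boundary of the parameter box is covered by the
face maps on the unit cube. -/
theorem expMapBasis_image_subset :
    expMapBasis '' (closure (paramSet K) \ interior (paramSet K)) ⊆
      ⋃ f : Face K, faceMap K f '' Set.Icc 0 1 := by
  rintro _ ⟨x, ⟨hxc, hxi⟩, rfl⟩
  rw [closure_paramSet, Set.mem_univ_pi] at hxc
  rw [interior_paramSet, Set.mem_univ_pi] at hxi
  have hc0 : x w₀ ≤ 0 := by simpa using hxc w₀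
  have hc : ∀ w, w ≠ w₀ → x w ∈ Set.Icc (0 : ℝ) 1 := fun w hw => by simpa [hw] using hxc w
  obtain ⟨w, hw⟩ := not_forall.mp hxi
  by_cases hww : w = w₀
  · -- the face `x w₀ = 0`
    have h0 : x w₀ = 0 := by
      rw [hww, if_pos rfl, Set.mem_Iio, not_lt] at hw
      exact le_antisymm hc0 hw
    refine Set.mem_iUnion.mpr ⟨none, fun w => x w.1, ?_, ?_⟩
    · rw [Set.mem_Icc, Pi.le_def, Pi.le_def]
      exact ⟨fun w => (hc w.1 w.2).1, fun w => (hc w.1 w.2).2⟩
    · have hpt : facePt K none (fun w : PIdx K => x w.1) = x := by
        funext w'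
        unfold facePt
        by_cases h : w' = w₀
        · rw [dif_pos h, h, h0]
        · rw [dif_neg h]
      show faceScale K none _ • expMapBasis (facePt K none _) = expMapBasis x
      rw [hpt]
      show (1 : ℝ) • expMapBasis x = expMapBasis x
      rw [one_smul]
  · -- a face `x w = 0` or `x w = 1`, `w ≠ w₀`
    rw [if_neg hww] at hw
    have hwc := hc w hww
    have hb : x w = 0 ∨ x w = 1 := by
      rw [Set.mem_Ioo, not_and_or, not_lt, not_lt] at hw
      rcases hw with h | h
      · left
        exact le_antisymm h hwc.1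
      · right
        exact le_antisymm hwc.2 h
    let w₁ : PIdx K := ⟨w, hww⟩
    let u : PIdx K → ℝ := fun w' => if w' = w₁ then Real.exp (x w₀) else x w'.1
    have hu : u ∈ Set.Icc (0 : PIdx K → ℝ) 1 := by
      rw [Set.mem_Icc, Pi.le_def, Pi.le_def]
      refine ⟨fun w' => ?_, fun w' => ?_⟩
      · show (0 : ℝ) ≤ u w'
        simp only [u]
        split_ifs
        · exact (Real.exp_pos _).le
        · exact (hc w'.1 w'.2).1
      · show u w' ≤ 1
        simp only [u]
        split_ifs
        · exact Real.exp_le_one_iff.mpr hc0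
        · exact (hc w'.1 w'.2).2
    refine Set.mem_iUnion.mpr ⟨some (w₁, decide (x w = 1)), u, hu, ?_⟩
    have hpt : facePt K (some (w₁, decide (x w = 1))) u = fun i => if i = w₀ then 0 else x i := by
      funext w'
      unfold facePt
      by_cases h : w' = w₀
      · rw [dif_pos h, if_pos h]
      · rw [dif_neg h, if_neg h]
        show (if w' = w then (if decide (x w = 1) then (1 : ℝ) else 0) else u ⟨w', h⟩) = x w'
        by_cases h1 : w' = w
        · rw [if_pos h1, h1]
          rcases hb with hb | hb
          · simp [hb]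
          · simp [hb]
        · rw [if_neg h1]
          show (if (⟨w', h⟩ : PIdx K) = w₁ then Real.exp (x w₀) else x w') = x w'
          rw [if_neg (fun h2 => h1 (congrArg Subtype.val h2))]
    have hsc : faceScale K (some (w₁, decide (x w = 1))) u = Real.exp (x w₀) := by
      show u w₁ = Real.exp (x w₀)
      simp [u]
    show faceScale K (some (w₁, decide (x w = 1))) u •
      expMapBasis (facePt K (some (w₁, decide (x w = 1))) u) = expMapBasis x
    rw [hpt, hsc, ← expMapBasis_apply'']

theorem frontier_normLeOne_subset_faceMap :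
    frontier (normLeOne K) ⊆ normAtAllPlaces ⁻¹'
      ((⋃ f : Face K, faceMap K f '' Set.Icc 0 1) ∪ {0}) := by
  exact (frontier_normLeOne_subset K).trans
    (Set.preimage_mono (Set.union_subset_union_left _ (expMapBasis_image_subset K)))

end Fermat.Agent.S14.Thaine.ClassZetaA
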