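/-
S14, Route T, block ClassZetaA.  The maps `bdryMap K f σ` are Lipschitz on the unit cube
(they are `C¹`, and the cube is compact and convex).
FROZEN STATEMENT of `bdryMap_lipschitzOnWith` (do not change it).  Fully proved
(owner: helper218); helper lemmas have prefix `smooth_`.
-/
import Mathlib
import Fermat.Agent.S14.Thaine.ClassZetaA.Defs
import Fermat.Agent.S14.Thaine.ClassZetaA.Param

set_option autoImplicit false

namespace Fermat.Agent.S14.Thaine.ClassZetaA

open NumberField NumberField.InfinitePlace NumberField.mixedEmbedding
  NumberField.mixedEmbedding.fundamentalCone NumberField.Units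
  NumberField.Units.dirichletUnitTheorem

open scoped Classical NNReal

variable (K : Type*) [Field K] [NumberField K]

/-- `expMapBasis` (as a plain function) is `C¹`. -/
theorem smooth_contDiff_expMapBasis :
    ContDiff ℝ 1 (fun x : realSpace K => (expMapBasis x : realSpace K)) := by
  have h : (fun x : realSpace K => (expMapBasis x : realSpace K)) =
      fun x w => Real.exp ((w.mult : ℝ)⁻¹ * ((completeBasis K).equivFunL.symm x) w) := by
    funext x w
    rw [expMapBasis_apply, expMap_apply]
    rfl
  rw [h, contDiff_pi]
  intro w
  apply Real.contDiff_exp.comp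
  apply contDiff_const.mul
  exact (contDiff_apply ℝ ℝ w).comp (completeBasis K).equivFunL.symm.contDiff

/-- The face point is a `C¹` (indeed affine) function of the parameters. -/
theorem smooth_contDiff_facePt (f : Face K) :
    ContDiff ℝ 1 (fun v : (PIdx K ⊕ {w : InfinitePlace K // IsComplex w}) → ℝ =>
      facePt K f (v ∘ Sum.inl)) := by
  rw [contDiff_pi]
  intro w
  cases f with
  | none =>
    simp only [facePt]
    split_ifs
    · exact contDiff_const
    · exact contDiff_apply ℝ ℝ _
  | some p =>
    obtain ⟨w₁, b⟩ := p
    simp only [facePt]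
    split_ifs <;> first | exact contDiff_const | exact contDiff_apply ℝ ℝ _

/-- The face scale is a `C¹` function of the parameters. -/
theorem smooth_contDiff_faceScale (f : Face K) :
    ContDiff ℝ 1 (fun v : (PIdx K ⊕ {w : InfinitePlace K // IsComplex w}) → ℝ =>
      faceScale K f (v ∘ Sum.inl)) := by
  cases f with
  | none => exact contDiff_const
  | some p => exact contDiff_apply ℝ ℝ (Sum.inl p.1)

/-- The face map is a `C¹` function of the parameters. -/
theorem smooth_contDiff_faceMap (f : Face K) :
    ContDiff ℝ 1 (fun v : (PIdx K ⊕ {w : InfinitePlace K // IsComplex w}) → ℝ =>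
      faceMap K f (v ∘ Sum.inl)) :=
  (smooth_contDiff_faceScale K f).smul
    ((smooth_contDiff_expMapBasis K).comp (smooth_contDiff_facePt K f))

/-- The boundary map is `C¹`. -/
theorem smooth_contDiff_bdryMap (f : Face K) (σ : {w : InfinitePlace K // IsReal w} → Bool) :
    ContDiff ℝ 1 (bdryMap K f σ) := by
  have hF := smooth_contDiff_faceMap K f
  unfold bdryMap polarLift
  apply ContDiff.prodMk
  · rw [contDiff_pi]
    intro w
    exact contDiff_const.mul ((contDiff_apply ℝ ℝ w.1).comp hF)
  · rw [contDiff_pi]
    intro w
    apply ContDiff.mul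
    · exact Complex.ofRealCLM.contDiff.comp ((contDiff_apply ℝ ℝ w.1).comp hF)
    · apply ContDiff.cexp
      apply ContDiff.mul _ contDiff_const
      apply Complex.ofRealCLM.contDiff.comp
      exact (contDiff_const.mul (contDiff_apply ℝ ℝ (Sum.inr w))).sub contDiff_const

theorem bdryMap_lipschitzOnWith (f : Face K) (σ : {w : InfinitePlace K // IsReal w} → Bool) :
    ∃ L : ℝ≥0, LipschitzOnWith L (bdryMap K f σ) (Set.Icc 0 1) := by
  exact (smooth_contDiff_bdryMap K f σ).contDiffOn.exists_lipschitzOnWith one_ne_zero
    (convex_Icc 0 1) isCompact_Icc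

end Fermat.Agent.S14.Thaine.ClassZetaA
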