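/-
S14, Route T, block ClassZetaA.  The frontier of `normLeOne K` is covered by finitely many
Lipschitz images of the unit cube of dimension `[K : ℚ] - 1`.
FROZEN STATEMENTS `card_param`, `lipCovered_frontier_normLeOne` (do not change them).  Both proved
here (owner: helper218) from `Polar.lean`, `Smooth.lean` and the `LipCovered` API of `Cover.lean`;
helper lemmas have the prefix `frontier_aux_`.
-/
import Mathlib
import Fermat.Agent.S14.Thaine.ClassZetaA.Defs
import Fermat.Agent.S14.Thaine.ClassZetaA.Cover
import Fermat.Agent.S14.Thaine.ClassZetaA.Param
import Fermat.Agent.S14.Thaine.ClassZetaA.Polar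
import Fermat.Agent.S14.Thaine.ClassZetaA.Smooth

set_option autoImplicit false

namespace Fermat.Agent.S14.Thaine.ClassZetaA

open NumberField NumberField.InfinitePlace NumberField.mixedEmbedding
  NumberField.mixedEmbedding.fundamentalCone NumberField.Units
  NumberField.Units.dirichletUnitTheorem Module

open scoped Classical NNReal

variable (K : Type*) [Field K] [NumberField K]

/-- The number of infinite places different from `w₀`. -/
theorem frontier_aux_card_PIdx :
    Fintype.card (PIdx K) = Fintype.card (InfinitePlace K) - 1 := by
  rw [Fintype.card_subtype_compl (fun w : InfinitePlace K => w = w₀), Fintype.card_subtype_eq]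

/-- The number of complex places, with the `Fintype` instance in force in this file. -/
theorem frontier_aux_card_complex :
    Fintype.card {w : InfinitePlace K // IsComplex w} = nrComplexPlaces K := by
  rw [← Nat.card_eq_fintype_card]
  exact Nat.card_eq_fintype_card

theorem card_param :
    Fintype.card (PIdx K ⊕ {w : InfinitePlace K // IsComplex w}) = finrank ℚ K - 1 := by
  have h2 := card_eq_nrRealPlaces_add_nrComplexPlaces K
  have h3 := card_add_two_mul_card_eq_rank K
  have h5 : 1 ≤ Fintype.card (InfinitePlace K) := Fintype.card_pos
  rw [Fintype.card_sum, frontier_aux_card_PIdx, frontier_aux_card_complex]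
  omega

theorem lipCovered_frontier_normLeOne :
    LipCovered (finrank ℚ K - 1) (frontier (normLeOne K)) := by
  refine LipCovered.mono ?_ (frontier_normLeOne_subset_bdryMap K)
  refine LipCovered.union ?_ (LipCovered.singleton 0)
  refine LipCovered.iUnion fun f => LipCovered.iUnion fun σ => ?_
  obtain ⟨L, hL⟩ := bdryMap_lipschitzOnWith K f σ
  exact LipCovered.of_fintype (card_param K) (bdryMap K f σ) L hL

end Fermat.Agent.S14.Thaine.ClassZetaA
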