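/-
S14, Route T, block ClassZetaA.  The number of integral ideals of norm `≤ x` in an ideal class is
`κ x + O(x^(1 - 1/n))`, `κ` independent of the class.
(Quantitative version of Mathlib's `NumberField.Ideal.tendsto_norm_le_and_mk_eq_div_atTop`.)
FROZEN STATEMENT (`exists_count_rate`); helper lemmas have the prefix `idealCount_`.
-/
import Mathlib
import Fermat.Agent.S14.Thaine.ClassZetaA.Defs
import Fermat.Agent.S14.Thaine.ClassZetaA.Cover
import Fermat.Agent.S14.Thaine.ClassZetaA.Lattice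
import Fermat.Agent.S14.Thaine.ClassZetaA.Frontier

set_option autoImplicit false

namespace Fermat.Agent.S14.Thaine.ClassZetaA

open NumberField Module
open scoped nonZeroDivisors

section idealCount_aux

open Ideal Filter InfinitePlace mixedEmbedding euclidean fundamentalCone Submodule Topology
open NumberField.Units
open scoped Real

variable (K : Type*) [Field K] [NumberField K]
variable {C : ClassGroup (𝓞 K)} {J : (Ideal (𝓞 K))⁰} {s : ℝ}

/-- Copy of Mathlib's private `NumberField.Ideal.tendsto_norm_le_and_mk_eq_div_atTop_aux₁`. -/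
theorem idealCount_aux₁ (hJ : ClassGroup.mk0 J = C⁻¹) :
    Nat.card {I : (Ideal (𝓞 K))⁰ // absNorm (I : Ideal (𝓞 K)) ≤ s ∧ ClassGroup.mk0 I = C}
      = Nat.card {I : (Ideal (𝓞 K))⁰ // (J : Ideal (𝓞 K)) ∣ I ∧ IsPrincipal (I : Ideal (𝓞 K)) ∧
        absNorm (I : Ideal (𝓞 K)) ≤ s * absNorm (J : Ideal (𝓞 K))} := by
  simp_rw [← nonZeroDivisors_dvd_iff_dvd_coe]
  refine Nat.card_congr ?_
  refine ((Equiv.dvd J).subtypeEquiv fun I ↦ ?_).trans
    (Equiv.subtypeSubtypeEquivSubtypeInter (fun I : (Ideal (𝓞 K))⁰ ↦ J ∣ I) _)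
  rw [← ClassGroup.mk0_eq_one_iff (SetLike.coe_mem _)]
  simp_rw [Equiv.dvd_apply, Submonoid.coe_mul, ← Submonoid.mul_def, _root_.map_mul, hJ,
    inv_mul_eq_one, Nat.cast_mul, mul_comm s, eq_comm, and_comm, and_congr_left_iff]
  exact fun _ ↦
    (mul_le_mul_iff_of_pos_left (Nat.cast_pos.mpr (absNorm_pos_of_nonZeroDivisors J))).symm

open scoped Classical in
/-- Copy of Mathlib's private `NumberField.Ideal.tendsto_norm_le_and_mk_eq_div_atTop_aux₂`
(stated for cardinalities). -/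
theorem idealCount_aux₂ :
    Nat.card ↑({x | x ∈ (toMixed K) ⁻¹' fundamentalCone K ∧
        mixedEmbedding.norm ((toMixed K) x) ≤ s} ∩
      (ZLattice.comap ℝ (idealLattice K ((FractionalIdeal.mk0 K) J)) (toMixed K).toLinearMap))
        = Nat.card {a : idealSet K J // mixedEmbedding.norm (a : mixedSpace K) ≤ s} := by
  refine Nat.card_congr ?_
  rw [ZLattice.coe_comap]
  refine (((toMixed K).toEquiv.image _).trans (Equiv.subtypeEquivProp ?_)).trans
    (Equiv.subtypeSubtypeEquivSubtypeInter _ (mixedEmbedding.norm · ≤ s)).symm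
  ext
  simp_rw [mem_idealSet, Set.mem_image, Set.mem_inter_iff, Set.mem_preimage, SetLike.mem_coe,
    mem_idealLattice, FractionalIdeal.coe_mk0]
  constructor
  · rintro ⟨_, ⟨⟨hx₁, hx₂⟩, _, ⟨x, hx₃, rfl⟩, h⟩, rfl⟩
    exact ⟨⟨hx₁, x, hx₃, h⟩, hx₂⟩
  · rintro ⟨⟨hx₁, ⟨x, hx₂, rfl⟩⟩, hx₃⟩
    exact ⟨(toMixed K).symm (mixedEmbedding K x), ⟨⟨hx₁, hx₃⟩, ⟨(x : K), by simp [hx₂], rfl⟩⟩, rfl⟩

/-- Uniqueness of the main term: a bound `|f x - κ' x| ≤ A x ^ e` with `e < 1` forces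
`f x / x → κ'`. -/
theorem idealCount_eq_of_bound {f : ℝ → ℝ} {κ κ' A e : ℝ} (he : e < 1)
    (hf : Tendsto (fun x => f x / x) atTop (𝓝 κ))
    (hb : ∀ x : ℝ, 1 ≤ x → |f x - κ' * x| ≤ A * x ^ e) : κ' = κ := by
  have h1 : Tendsto (fun x : ℝ => A * x ^ (e - 1)) atTop (𝓝 0) := by
    have h0 : Tendsto (fun x : ℝ => x ^ (-(1 - e))) atTop (𝓝 0) :=
      tendsto_rpow_neg_atTop (by linarith)
    have h0' := h0.const_mul A
    rw [mul_zero] at h0'
    refine h0'.congr fun x => ?_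
    rw [neg_sub]
  have h2 : Tendsto (fun x => f x / x) atTop (𝓝 κ') := by
    rw [tendsto_iff_dist_tendsto_zero]
    refine squeeze_zero' (Eventually.of_forall fun _ => dist_nonneg) ?_ h1
    filter_upwards [eventually_ge_atTop 1] with x hx
    have hx0 : 0 < x := by linarith
    rw [Real.dist_eq]
    have hxx : f x / x - κ' = (f x - κ' * x) / x := by field_simp
    rw [hxx, abs_div, abs_of_pos hx0, div_le_iff₀ hx0]
    calc |f x - κ' * x| ≤ A * x ^ e := hb x hx
      _ = A * x ^ (e - 1) * x := by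
        rw [Real.rpow_sub_one hx0.ne']
        field_simp
  exact tendsto_nhds_unique h2 hf

/-- The counting theorem with rate, for one class (the constant `κ'` may a priori depend on the
class). -/
theorem idealCount_class (C : ClassGroup (𝓞 K)) :
    ∃ κ' A : ℝ, ∀ x : ℝ, 1 ≤ x →
      |(Nat.card {I : (Ideal (𝓞 K))⁰ //
            absNorm (I : Ideal (𝓞 K)) ≤ x ∧ ClassGroup.mk0 I = C} : ℝ) - κ' * x|
        ≤ A * x ^ (1 - 1 / (finrank ℚ K : ℝ)) := by
  classical
  have h₁ : ∀ s : ℝ,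
    {x | x ∈ toMixed K ⁻¹' fundamentalCone K ∧ mixedEmbedding.norm (toMixed K x) ≤ s} =
      toMixed K ⁻¹' {x | x ∈ fundamentalCone K ∧ mixedEmbedding.norm x ≤ s} := fun _ ↦ rfl
  have h₂ : {x | x ∈ fundamentalCone K ∧ mixedEmbedding.norm x ≤ 1} = normLeOne K := by ext; simp
  obtain ⟨J, hJ⟩ := ClassGroup.mk0_surjective C⁻¹
  have hX : ∀ ⦃x : euclidean.mixedSpace K⦄ ⦃r : ℝ⦄, x ∈ (toMixed K) ⁻¹' (fundamentalCone K) →
      0 < r → r • x ∈ (toMixed K) ⁻¹' (fundamentalCone K) := by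
    intro x r hx h
    rwa [Set.mem_preimage, map_smul, smul_mem_iff_mem h.ne']
  have hF : ∀ (x : euclidean.mixedSpace K) ⦃r : ℝ⦄, 0 ≤ r →
      mixedEmbedding.norm (toMixed K (r • x)) =
        r ^ finrank ℝ (euclidean.mixedSpace K) * mixedEmbedding.norm (toMixed K x) := by
    intro x r h
    rw [map_smul, mixedEmbedding.norm_smul, euclidean.finrank, abs_of_nonneg h]
  have hbdd : Bornology.IsBounded {x | x ∈ (toMixed K) ⁻¹' (fundamentalCone K) ∧
      mixedEmbedding.norm (toMixed K x) ≤ 1} :=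
    (toMixed K).antilipschitz.isBounded_preimage (isBounded_normLeOne K)
  have hmeas : MeasurableSet {x | x ∈ (toMixed K) ⁻¹' (fundamentalCone K) ∧
      mixedEmbedding.norm (toMixed K x) ≤ 1} :=
    (toMixed K).continuous.measurable (measurableSet_normLeOne K)
  have hlip : LipCovered (finrank ℝ (euclidean.mixedSpace K) - 1)
      (frontier {x | x ∈ (toMixed K) ⁻¹' (fundamentalCone K) ∧
        mixedEmbedding.norm (toMixed K x) ≤ 1}) := by
    rw [h₁, ← (toMixed K).coe_toHomeomorph, ← Homeomorph.preimage_frontier,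
      (toMixed K).coe_toHomeomorph, h₂, euclidean.finrank,
      ← ContinuousLinearEquiv.image_symm_eq_preimage]
    exact (lipCovered_frontier_normLeOne K).image
      ((toMixed K).symm : mixedSpace K →L[ℝ] euclidean.mixedSpace K).lipschitz
  obtain ⟨A₀, hA₀⟩ := abs_card_le_sub_le
    (ZLattice.comap ℝ (mixedEmbedding.idealLattice K (FractionalIdeal.mk0 K J))
      (toMixed K).toLinearMap)
    (F := fun x ↦ mixedEmbedding.norm (toMixed K x)) (X := (toMixed K) ⁻¹' (fundamentalCone K))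
    hX hF hbdd hmeas hlip
  have hω : (0 : ℝ) < torsionOrder K := Nat.cast_pos.mpr (torsionOrder_pos K)
  have ha : (1 : ℝ) ≤ absNorm J.1 := by exact_mod_cast absNorm_pos_of_nonZeroDivisors J
  refine ⟨absNorm J.1 * (MeasureTheory.volume.real {x | x ∈ (toMixed K) ⁻¹' (fundamentalCone K) ∧
        mixedEmbedding.norm (toMixed K x) ≤ 1} / ZLattice.covolume
      (ZLattice.comap ℝ (mixedEmbedding.idealLattice K (FractionalIdeal.mk0 K J))
        (toMixed K).toLinearMap)) / torsionOrder K,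
    A₀ * (absNorm J.1 : ℝ) ^ (1 - 1 / (finrank ℚ K : ℝ)) / torsionOrder K, fun x hx => ?_⟩
  have hc : 1 ≤ x * absNorm J.1 := by nlinarith
  have hmain := hA₀ (x * absNorm J.1) hc
  have hcount : (Nat.card {I : (Ideal (𝓞 K))⁰ //
      absNorm (I : Ideal (𝓞 K)) ≤ x ∧ ClassGroup.mk0 I = C} : ℝ) * torsionOrder K =
      Nat.card ↑({x' | x' ∈ (toMixed K) ⁻¹' fundamentalCone K ∧
        mixedEmbedding.norm ((toMixed K) x') ≤ x * absNorm J.1} ∩
      (ZLattice.comap ℝ (idealLattice K ((FractionalIdeal.mk0 K) J))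
        (toMixed K).toLinearMap : Set (euclidean.mixedSpace K))) := by
    rw [idealCount_aux₁ K hJ, idealCount_aux₂ K, ← card_isPrincipal_dvd_norm_le, Nat.cast_mul]
  rw [← hcount, euclidean.finrank, Real.mul_rpow (by linarith) (by linarith)] at hmain
  generalize (Nat.card {I : (Ideal (𝓞 K))⁰ //
      absNorm (I : Ideal (𝓞 K)) ≤ x ∧ ClassGroup.mk0 I = C} : ℝ) = N at hmain ⊢
  generalize (MeasureTheory.volume.real {x | x ∈ (toMixed K) ⁻¹' (fundamentalCone K) ∧
        mixedEmbedding.norm (toMixed K x) ≤ 1} / ZLattice.covolume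
      (ZLattice.comap ℝ (mixedEmbedding.idealLattice K (FractionalIdeal.mk0 K J))
        (toMixed K).toLinearMap)) = V' at hmain ⊢
  generalize (absNorm J.1 : ℝ) = a at hmain ha ⊢
  generalize (torsionOrder K : ℝ) = ω at hmain hω ⊢
  generalize (1 - 1 / (finrank ℚ K : ℝ)) = e at hmain ⊢
  have key : N - a * V' / ω * x = (N * ω - x * a * V') / ω := by field_simp
  rw [key, abs_div, abs_of_pos hω, div_le_iff₀ hω]
  calc |N * ω - x * a * V'| ≤ A₀ * (x ^ e * a ^ e) := hmain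
    _ = A₀ * a ^ e / ω * x ^ e * ω := by field_simp

end idealCount_aux

theorem exists_count_rate (K : Type*) [Field K] [NumberField K] :
    ∃ κ : ℝ, ∀ C : ClassGroup (𝓞 K), ∃ A : ℝ, ∀ x : ℝ, 1 ≤ x →
      |(Nat.card {I : (Ideal (𝓞 K))⁰ //
            Ideal.absNorm (I : Ideal (𝓞 K)) ≤ x ∧ ClassGroup.mk0 I = C} : ℝ) - κ * x|
        ≤ A * x ^ (1 - 1 / (finrank ℚ K : ℝ)) := by
  refine ⟨(2 ^ InfinitePlace.nrRealPlaces K * (2 * Real.pi) ^ InfinitePlace.nrComplexPlaces K *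
      Units.regulator K) / (Units.torsionOrder K * Real.sqrt |discr K|), fun C => ?_⟩
  obtain ⟨κ', A, hA⟩ := idealCount_class K C
  have hn : (0 : ℝ) < (finrank ℚ K : ℝ) := Nat.cast_pos.mpr finrank_pos
  have he : 1 - 1 / (finrank ℚ K : ℝ) < 1 := by
    have : 0 < 1 / (finrank ℚ K : ℝ) := one_div_pos.mpr hn
    linarith
  have hκ := idealCount_eq_of_bound he
    (NumberField.Ideal.tendsto_norm_le_and_mk_eq_div_atTop K C) hA
  rw [← hκ]
  exact ⟨A, hA⟩

end Fermat.Agent.S14.Thaine.ClassZetaA
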