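/-
S14, Route T, block ClassZetaA.  Lattice point counting in `ι → ℝ` with a rate, for bounded
measurable sets whose frontier is covered by Lipschitz images of `(n-1)`-cubes.
(Quantitative version of Mathlib's `tendsto_card_div_pow_atTop_volume'`.)
FROZEN STATEMENT (helper lemmas carry the prefix `piCount_`).
-/
import Mathlib
import Fermat.Agent.S14.Thaine.ClassZetaA.Defs
import Fermat.Agent.S14.Thaine.ClassZetaA.BoxCount
import Fermat.Agent.S14.Thaine.ClassZetaA.CubeCount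

set_option autoImplicit false

namespace Fermat.Agent.S14.Thaine.ClassZetaA

open MeasureTheory Bornology Submodule
open scoped NNReal Pointwise

variable {ι : Type*} [Fintype ι]

local notation "L₀" => span ℤ (Set.range (Pi.basisFun ℝ ι))

/-- The `ℤ`-span of the standard basis of `ι → ℝ` is the set of integer points. -/
theorem piCount_coe_span_eq_intPts : ((L₀ : Submodule ℤ (ι → ℝ)) : Set (ι → ℝ)) = intPts ι := by
  ext v
  rw [SetLike.mem_coe, Module.Basis.mem_span_iff_repr_mem]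
  simp only [Pi.basisFun_repr, intPts, Set.mem_range, eq_intCast]
  constructor
  · intro h
    choose z hz using h
    exact ⟨z, funext hz⟩
  · rintro ⟨z, rfl⟩ i
    exact ⟨z i, rfl⟩

/-- Rescaling: points of `s` in the lattice `x⁻¹ • ℤ^ι` correspond to integer points of
`x • s`. -/
theorem piCount_card_eq (s : Set (ι → ℝ)) {x : ℝ} (hx : x ≠ 0) :
    Nat.card ↑(s ∩ x⁻¹ • (L₀ : Set (ι → ℝ))) = Nat.card ↑((x • s) ∩ intPts ι) := by
  rw [← piCount_coe_span_eq_intPts]
  exact Nat.card_congr (Equiv.subtypeEquiv (Equiv.smulRight hx) (fun v ↦ by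
    simp_rw [Set.mem_inter_iff, Equiv.smulRight_apply, Set.smul_mem_smul_set_iff₀ hx,
      ← Set.mem_inv_smul_set_iff₀ hx]))

/-- Volume of a dilated set. -/
theorem piCount_volume_smul (s : Set (ι → ℝ)) {x : ℝ} (hx : 0 ≤ x) :
    volume.real (x • s) = x ^ Fintype.card ι * volume.real s := by
  rw [measureReal_def, measureReal_def, Measure.addHaar_smul, ENNReal.toReal_mul,
    ENNReal.toReal_ofReal (abs_nonneg _), Module.finrank_fintype_fun_eq_card,
    abs_of_nonneg (pow_nonneg hx _)]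

omit [Fintype ι] in
/-- Frontier of a dilated set. -/
theorem piCount_frontier_smul (s : Set (ι → ℝ)) {x : ℝ} (hx : x ≠ 0) :
    frontier (x • s) = x • frontier s := by
  have h := (Homeomorph.smulOfNeZero x hx).image_frontier s
  simpa [Homeomorph.smulOfNeZero_apply, Set.image_smul] using h.symm

theorem abs_card_sub_pow_mul_volume_le (s : Set (ι → ℝ)) (hs₁ : IsBounded s)
    (hs₂ : MeasurableSet s) (hs₃ : LipCovered (Fintype.card ι - 1) (frontier s)) :
    ∃ A : ℝ, ∀ x : ℝ, 1 ≤ x →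
      |(Nat.card ↑(s ∩ x⁻¹ • L₀) : ℝ) - x ^ Fintype.card ι * volume.real s|
        ≤ A * x ^ (Fintype.card ι - 1) := by
  obtain ⟨m, L, ψ, hψ, hcov⟩ := hs₃
  refine ⟨m * 3 ^ Fintype.card ι * ((L : ℝ) + 2) ^ (Fintype.card ι - 1), fun x hx => ?_⟩
  have hx0 : 0 < x := lt_of_lt_of_le one_pos hx
  -- reduce to counting integer points in `x • s`
  rw [piCount_card_eq s hx0.ne', ← piCount_volume_smul s hx0.le]
  refine (abs_card_sub_volume_le (x • s) (hs₁.smul₀ x) (hs₂.const_smul₀ x)).trans ?_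
  rw [piCount_frontier_smul s hx0.ne']
  -- the cubes meeting the frontier
  have hsub : cubeIdx '' (x • frontier s) ⊆ ⋃ a, cubeIdx '' (x • (ψ a '' Set.Icc 0 1)) := by
    rintro _ ⟨_, ⟨y, hy, rfl⟩, rfl⟩
    obtain ⟨a, ha⟩ := Set.mem_iUnion.1 (hcov hy)
    exact Set.mem_iUnion.2 ⟨a, _, Set.smul_mem_smul_set ha, rfl⟩
  have hfin : ∀ a, (cubeIdx '' (x • (ψ a '' Set.Icc 0 1))).Finite :=
    fun a => (ncard_cubeIdx_image_le (ψ a) L (hψ a) x hx0.le).1
  have hle : ∀ a, (cubeIdx '' (x • (ψ a '' Set.Icc 0 1))).ncard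
      ≤ 3 ^ Fintype.card ι * (⌈x * L⌉₊ + 1) ^ (Fintype.card ι - 1) :=
    fun a => (ncard_cubeIdx_image_le (ψ a) L (hψ a) x hx0.le).2
  have hncard : (cubeIdx '' (x • frontier s)).ncard
      ≤ m * (3 ^ Fintype.card ι * (⌈x * L⌉₊ + 1) ^ (Fintype.card ι - 1)) := by
    calc (cubeIdx '' (x • frontier s)).ncard
        ≤ (⋃ a, cubeIdx '' (x • (ψ a '' Set.Icc 0 1))).ncard :=
          Set.ncard_le_ncard hsub (Set.finite_iUnion hfin)
      _ ≤ ∑ a, (cubeIdx '' (x • (ψ a '' Set.Icc 0 1))).ncard :=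
          Set.ncard_iUnion_le_of_fintype _
      _ ≤ ∑ _a : Fin m, 3 ^ Fintype.card ι * (⌈x * L⌉₊ + 1) ^ (Fintype.card ι - 1) :=
          Finset.sum_le_sum fun a _ => hle a
      _ = m * (3 ^ Fintype.card ι * (⌈x * L⌉₊ + 1) ^ (Fintype.card ι - 1)) := by
          rw [Finset.sum_const, Finset.card_univ, Fintype.card_fin, smul_eq_mul]
  -- estimate `⌈x L⌉₊ + 1 ≤ (L + 2) x`
  have hL0 : (0 : ℝ) ≤ L := L.coe_nonneg
  have hceil : ((⌈x * L⌉₊ : ℝ) + 1) ≤ ((L : ℝ) + 2) * x := by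
    have h1 : (⌈x * (L : ℝ)⌉₊ : ℝ) < x * L + 1 := Nat.ceil_lt_add_one (by positivity)
    nlinarith
  calc ((cubeIdx '' (x • frontier s)).ncard : ℝ)
      ≤ ((m * (3 ^ Fintype.card ι * (⌈x * L⌉₊ + 1) ^ (Fintype.card ι - 1)) : ℕ) : ℝ) := by
        exact_mod_cast hncard
    _ = m * 3 ^ Fintype.card ι * ((⌈x * L⌉₊ : ℝ) + 1) ^ (Fintype.card ι - 1) := by
        push_cast
        ring
    _ ≤ m * 3 ^ Fintype.card ι * (((L : ℝ) + 2) * x) ^ (Fintype.card ι - 1) := by
        gcongr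
    _ = m * 3 ^ Fintype.card ι * ((L : ℝ) + 2) ^ (Fintype.card ι - 1)
          * x ^ (Fintype.card ι - 1) := by
        rw [mul_pow]
        ring

end Fermat.Agent.S14.Thaine.ClassZetaA
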