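/-
S14, Route T, block ClassZetaA.  Counting points of a `ℤ`-lattice in a cone, with a rate.
(Quantitative version of Mathlib's `ZLattice.covolume.tendsto_card_le_div'`.)
FROZEN STATEMENT `abs_card_le_sub_le` (fully proved here; helper lemmas have prefix `lattice_`).
-/
import Mathlib
import Fermat.Agent.S14.Thaine.ClassZetaA.Defs
import Fermat.Agent.S14.Thaine.ClassZetaA.Cover
import Fermat.Agent.S14.Thaine.ClassZetaA.PiCount

set_option autoImplicit false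

namespace Fermat.Agent.S14.Thaine.ClassZetaA

open MeasureTheory Bornology Submodule Module
open scoped NNReal Pointwise

section lattice_general

variable {E : Type*} [NormedAddCommGroup E] [NormedSpace ℝ E]
variable {L : Submodule ℤ E} [DiscreteTopology L] [IsZLattice ℝ L]
variable {ι : Type*} [Fintype ι] (b : Basis ι ℤ L)

/-- Copy of Mathlib's private `ZLattice.covolume.tendsto_card_le_div''_aux`. -/
theorem lattice_smul_setOf
    {X : Set E} (hX : ∀ ⦃x⦄ ⦃r : ℝ⦄, x ∈ X → 0 < r → r • x ∈ X)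
    {F : E → ℝ} (hF₁ : ∀ x ⦃r : ℝ⦄, 0 ≤ r → F (r • x) = r ^ Fintype.card ι * (F x))
    {c : ℝ} (hc : 0 < c) :
    c • {x ∈ X | F x ≤ 1} = {x ∈ X | F x ≤ c ^ Fintype.card ι} := by
  ext x
  simp_rw [Set.mem_smul_set_iff_inv_smul_mem₀ hc.ne', Set.mem_ofPred_eq, hF₁ _
    (inv_pos_of_pos hc).le, inv_pow, inv_mul_le_iff₀ (pow_pos hc _), mul_one, and_congr_left_iff]
  exact fun _ ↦ ⟨fun h ↦ (smul_inv_smul₀ hc.ne' x) ▸ hX h hc, fun h ↦ hX h (inv_pos_of_pos hc)⟩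

/-- Copy of Mathlib's private `ZLattice.covolume.frontier_equivFun`. -/
theorem lattice_frontier_equivFun {E : Type*} [AddCommGroup E] [Module ℝ E] {ι : Type*}
    [Finite ι] [TopologicalSpace E] [IsTopologicalAddGroup E] [ContinuousSMul ℝ E] [T2Space E]
    (b : Basis ι ℝ E) (s : Set E) :
    frontier (b.equivFun '' s) = b.equivFun '' (frontier s) := by
  rw [LinearEquiv.image_eq_preimage_symm, LinearEquiv.image_eq_preimage_symm]
  exact (Homeomorph.preimage_frontier b.equivFunL.toHomeomorph.symm s).symm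

/-- Quantitative version of Mathlib's `ZLattice.covolume.tendsto_card_le_div''`. -/
theorem lattice_abs_card_le_sub_le_general [FiniteDimensional ℝ E] [MeasurableSpace E]
    [BorelSpace E] [Nonempty ι] {X : Set E} (hX : ∀ ⦃x⦄ ⦃r : ℝ⦄, x ∈ X → 0 < r → r • x ∈ X)
    {F : E → ℝ} (h₁ : ∀ x ⦃r : ℝ⦄, 0 ≤ r → F (r • x) = r ^ Fintype.card ι * (F x))
    (h₂ : IsBounded {x ∈ X | F x ≤ 1}) (h₃ : MeasurableSet {x ∈ X | F x ≤ 1})
    (h₄ : LipCovered (Fintype.card ι - 1)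
      (frontier ((b.ofZLatticeBasis ℝ L).equivFun '' {x | x ∈ X ∧ F x ≤ 1}))) :
    ∃ A : ℝ, ∀ c : ℝ, 1 ≤ c →
      |(Nat.card ({x ∈ X | F x ≤ c} ∩ L : Set E) : ℝ)
          - c * volume.real ((b.ofZLatticeBasis ℝ).equivFun '' {x ∈ X | F x ≤ 1})|
        ≤ A * c ^ (1 - 1 / (Fintype.card ι : ℝ)) := by
  have hb : IsBounded ((b.ofZLatticeBasis ℝ).equivFun '' {x ∈ X | F x ≤ 1}) := by
    rw [← NormedSpace.isVonNBounded_iff ℝ] at h₂ ⊢
    exact Bornology.IsVonNBounded.image h₂ ((b.ofZLatticeBasis ℝ).equivFunL : E →L[ℝ] ι → ℝ)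
  have hm : MeasurableSet ((b.ofZLatticeBasis ℝ).equivFun '' {x ∈ X | F x ≤ 1}) :=
    (b.ofZLatticeBasis ℝ).equivFunL.toHomeomorph.toMeasurableEquiv.measurableSet_image.mpr h₃
  obtain ⟨A, hA⟩ := abs_card_sub_pow_mul_volume_le
      ((b.ofZLatticeBasis ℝ).equivFun '' {x ∈ X | F x ≤ 1}) hb hm h₄
  refine ⟨A, fun c hc1 => ?_⟩
  have hc : 0 < c := lt_of_lt_of_le one_pos hc1
  have aux₁ : (Fintype.card ι : ℝ) ≠ 0 := Nat.cast_ne_zero.mpr Fintype.card_ne_zero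
  have aux₂ : 0 < c ^ (Fintype.card ι : ℝ)⁻¹ := Real.rpow_pos_of_pos hc _
  have aux₃ : (c ^ (Fintype.card ι : ℝ)⁻¹)⁻¹ ≠ 0 := inv_ne_zero aux₂.ne'
  have aux₄ : c ^ (-(Fintype.card ι : ℝ)⁻¹) ≠ 0 := (Real.rpow_pos_of_pos hc _).ne'
  obtain ⟨hc₁, hc₂⟩ := lt_iff_le_and_ne.mp hc
  have hx1 : 1 ≤ c ^ (Fintype.card ι : ℝ)⁻¹ := Real.one_le_rpow hc1 (by positivity)
  have key := hA _ hx1
  have hcard : Nat.card ↑(((b.ofZLatticeBasis ℝ).equivFun '' {x ∈ X | F x ≤ 1}) ∩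
      (c ^ (Fintype.card ι : ℝ)⁻¹)⁻¹ • span ℤ (Set.range (Pi.basisFun ℝ ι)) : Set (ι → ℝ)) =
      Nat.card ({x ∈ X | F x ≤ c} ∩ L : Set E) := by
    symm
    refine Nat.card_congr <| Equiv.subtypeEquiv ((b.ofZLatticeBasis ℝ).equivFun.toEquiv.trans
        (Equiv.smulRight aux₄)) fun _ ↦ ?_
    rw [Set.mem_inter_iff, Set.mem_inter_iff, Equiv.trans_apply, LinearEquiv.coe_toEquiv,
      Equiv.smulRight_apply, Real.rpow_neg hc₁, Set.smul_mem_smul_set_iff₀ aux₃,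
      ← Set.mem_smul_set_iff_inv_smul_mem₀ aux₂.ne', ← image_smul_set,
      lattice_smul_setOf hX h₁ aux₂, ← Real.rpow_natCast, ← Real.rpow_mul hc₁,
      inv_mul_cancel₀ aux₁, Real.rpow_one]
    simp_rw [SetLike.mem_coe, Set.mem_image, EmbeddingLike.apply_eq_iff_eq, exists_eq_right,
      and_congr_right_iff, ← b.ofZLatticeBasis_span ℝ, Basis.mem_span_iff_repr_mem,
      Pi.basisFun_repr, Basis.equivFun_apply, implies_true]
  have hpow : (c ^ (Fintype.card ι : ℝ)⁻¹) ^ Fintype.card ι = c := by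
    rw [← Real.rpow_natCast, Real.rpow_inv_rpow hc₁ aux₁]
  have hpow' : (c ^ (Fintype.card ι : ℝ)⁻¹) ^ (Fintype.card ι - 1) =
      c ^ (1 - 1 / (Fintype.card ι : ℝ)) := by
    rw [← Real.rpow_natCast, ← Real.rpow_mul hc₁]
    congr 1
    have h1 : 1 ≤ Fintype.card ι := Fintype.card_pos
    rw [Nat.cast_sub h1, Nat.cast_one]
    field_simp
  rw [hcard, hpow, hpow'] at key
  exact key

end lattice_general

variable {E : Type*} [NormedAddCommGroup E] [InnerProductSpace ℝ E] [FiniteDimensional ℝ E]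
  [MeasurableSpace E] [BorelSpace E]
variable (L : Submodule ℤ E) [DiscreteTopology L] [IsZLattice ℝ L]

theorem abs_card_le_sub_le [Nontrivial E] {X : Set E} {F : E → ℝ}
    (hX : ∀ ⦃x⦄ ⦃r : ℝ⦄, x ∈ X → 0 < r → r • x ∈ X)
    (h₁ : ∀ x ⦃r : ℝ⦄, 0 ≤ r → F (r • x) = r ^ finrank ℝ E * (F x))
    (h₂ : IsBounded {x ∈ X | F x ≤ 1}) (h₃ : MeasurableSet {x ∈ X | F x ≤ 1})
    (h₄ : LipCovered (finrank ℝ E - 1) (frontier {x ∈ X | F x ≤ 1})) :
    ∃ A : ℝ, ∀ c : ℝ, 1 ≤ c →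
      |(Nat.card ({x ∈ X | F x ≤ c} ∩ L : Set E) : ℝ)
          - c * (volume.real {x ∈ X | F x ≤ 1} / ZLattice.covolume L)|
        ≤ A * c ^ (1 - 1 / (finrank ℝ E : ℝ)) := by
  let b := Module.Free.chooseBasis ℤ L
  have hcard : Fintype.card (Module.Free.ChooseBasisIndex ℤ L) = finrank ℝ E := by
    rw [← finrank_eq_card_chooseBasisIndex, ZLattice.rank ℝ L]
  have : Nontrivial L := nontrivial_of_finrank_pos <| (ZLattice.rank ℝ L).symm ▸ finrank_pos
  have : Nonempty (Module.Free.ChooseBasisIndex ℤ L) := inferInstance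
  have hvol : volume.real ((b.ofZLatticeBasis ℝ).equivFun '' {x ∈ X | F x ≤ 1}) =
      volume.real {x ∈ X | F x ≤ 1} / ZLattice.covolume L := by
    simp only [measureReal_def]
    rw [ZLattice.volume_image_eq_volume_div_covolume' L b h₃.nullMeasurableSet, ENNReal.toReal_div,
      ENNReal.toReal_ofReal (ZLattice.covolume_pos L volume).le]
  have h₄' : LipCovered (Fintype.card (Module.Free.ChooseBasisIndex ℤ L) - 1)
      (frontier ((b.ofZLatticeBasis ℝ L).equivFun '' {x | x ∈ X ∧ F x ≤ 1})) := by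
    rw [hcard, lattice_frontier_equivFun]
    have hlip : LipschitzWith ‖((b.ofZLatticeBasis ℝ L).equivFunL :
        E →L[ℝ] (Module.Free.ChooseBasisIndex ℤ L → ℝ))‖₊ (b.ofZLatticeBasis ℝ L).equivFun :=
      ((b.ofZLatticeBasis ℝ L).equivFunL :
        E →L[ℝ] (Module.Free.ChooseBasisIndex ℤ L → ℝ)).lipschitz
    exact LipCovered.image h₄ hlip
  obtain ⟨A, hA⟩ := lattice_abs_card_le_sub_le_general b hX (by rwa [hcard]) h₂ h₃ h₄'
  refine ⟨A, fun c hc => ?_⟩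
  have := hA c hc
  rwa [hvol, hcard] at this

end Fermat.Agent.S14.Thaine.ClassZetaA
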