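/-
S14, Route T, block ClassZetaA.  The two theorems of `Thaine/Iface/ClassZeta.lean`, proved from
the counting theorem with rate and summation by parts.  (Owner: helper11.)
-/
import Mathlib
import Fermat.Agent.S14.Thaine.Defs
import Fermat.Agent.S14.Thaine.ClassZetaA.IdealCount
import Fermat.Agent.S14.Thaine.ClassZetaA.Abel

set_option autoImplicit false

namespace Fermat.Agent.S14.Thaine.ClassZetaA

open NumberField Module
open scoped nonZeroDivisors

section aux

variable (K : Type*) [Field K] [NumberField K] (C : ClassGroup (𝓞 K))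

/-- The norm function on the integral ideals of the class `C`. -/
noncomputable def main_N : {I : (Ideal (𝓞 K))⁰ // ClassGroup.mk0 I = C} → ℕ :=
  fun I => Ideal.absNorm (I.1 : Ideal (𝓞 K))

theorem main_one_le (a : {I : (Ideal (𝓞 K))⁰ // ClassGroup.mk0 I = C}) : 1 ≤ main_N K C a := by
  rw [Nat.one_le_iff_ne_zero]
  intro h
  have h0 : ((a.1 : (Ideal (𝓞 K))⁰) : Ideal (𝓞 K)) = ⊥ := Ideal.absNorm_eq_zero_iff.mp h
  exact nonZeroDivisors.coe_ne_zero a.1 h0

theorem main_finite (m : ℕ) : {a | main_N K C a ≤ m}.Finite := by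
  have h := Ideal.finite_setOfPred_absNorm_le₀ (S := 𝓞 K) m
  refine Set.Finite.of_finite_image (f := Subtype.val) (h.subset ?_) Subtype.val_injective.injOn
  rintro _ ⟨a, ha, rfl⟩
  exact ha

theorem main_card_eq (m : ℕ) :
    Nat.card {a // main_N K C a ≤ m} =
      Nat.card {I : (Ideal (𝓞 K))⁰ //
            (Ideal.absNorm (I : Ideal (𝓞 K)) : ℝ) ≤ (m : ℝ) ∧ ClassGroup.mk0 I = C} := by
  refine Nat.card_congr
    { toFun := fun a => ⟨a.1.1, by exact_mod_cast a.2, a.1.2⟩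
      invFun := fun I => ⟨⟨I.1, I.2.2⟩, by
        have := I.2.1
        show Ideal.absNorm (I.1 : Ideal (𝓞 K)) ≤ m
        exact_mod_cast this⟩
      left_inv := fun a => rfl
      right_inv := fun I => rfl }

theorem main_rpow_le (m : ℕ) (hm : 1 ≤ m) :
    (m : ℝ) ^ (1 - 1 / (finrank ℚ K : ℝ)) ≤ (m : ℝ) := by
  have h1 : (1 : ℝ) ≤ (m : ℝ) := by exact_mod_cast hm
  calc (m : ℝ) ^ (1 - 1 / (finrank ℚ K : ℝ)) ≤ (m : ℝ) ^ (1 : ℝ) := by
        apply Real.rpow_le_rpow_of_exponent_le h1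
        have : (0 : ℝ) ≤ 1 / (finrank ℚ K : ℝ) := by positivity
        linarith
    _ = (m : ℝ) := Real.rpow_one _

end aux

theorem classZeta_summable' (K : Type*) [Field K] [NumberField K] (C : ClassGroup (𝓞 K))
    {s : ℝ} (hs : 1 < s) :
    Summable (fun I : {I : (Ideal (𝓞 K))⁰ // ClassGroup.mk0 I = C} =>
      ((Ideal.absNorm (I.1 : Ideal (𝓞 K)) : ℝ)) ^ (-s)) := by
  obtain ⟨κ, hκ⟩ := exists_count_rate K
  obtain ⟨A, hA⟩ := hκ C
  refine summable_of_card_le (main_N K C) (main_one_le K C) (main_finite K C) (|κ| + |A|) ?_ hs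
  intro m hm
  have h1 : (1 : ℝ) ≤ (m : ℝ) := by exact_mod_cast hm
  have h := hA (m : ℝ) h1
  rw [main_card_eq K C m]
  have h2 := (abs_le.mp h).2
  have h3 := main_rpow_le K m hm
  have h4 : A * (m : ℝ) ^ (1 - 1 / (finrank ℚ K : ℝ)) ≤ |A| * (m : ℝ) := by
    calc A * (m : ℝ) ^ (1 - 1 / (finrank ℚ K : ℝ))
        ≤ |A| * (m : ℝ) ^ (1 - 1 / (finrank ℚ K : ℝ)) := by
          apply mul_le_mul_of_nonneg_right (le_abs_self A)
          positivity
      _ ≤ |A| * (m : ℝ) := mul_le_mul_of_nonneg_left h3 (abs_nonneg A)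
  have h5 : κ * (m : ℝ) ≤ |κ| * (m : ℝ) :=
    mul_le_mul_of_nonneg_right (le_abs_self κ) (by positivity)
  linarith

theorem classZeta_sub_bounded' (K : Type*) [Field K] [NumberField K] (C C' : ClassGroup (𝓞 K)) :
    ∃ M : ℝ, ∀ s : ℝ, 1 < s → s ≤ 2 → |classZeta K C s - classZeta K C' s| ≤ M := by
  obtain ⟨κ, hκ⟩ := exists_count_rate K
  obtain ⟨A, hA⟩ := hκ C
  obtain ⟨A', hA'⟩ := hκ C'
  have hn : 0 < finrank ℚ K := finrank_pos
  have hn1 : (1 : ℝ) ≤ (finrank ℚ K : ℝ) := by exact_mod_cast hn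
  have hδ : (0 : ℝ) < 1 / (finrank ℚ K : ℝ) := by positivity
  have hδ1 : 1 / (finrank ℚ K : ℝ) ≤ 1 := by
    rw [div_le_one (by positivity)]
    exact hn1
  exact exists_abs_tsum_sub_tsum_le (main_N K C) (main_N K C') (main_one_le K C)
    (main_one_le K C') (main_finite K C) (main_finite K C')
    (fun s hs => classZeta_summable' K C hs) (fun s hs => classZeta_summable' K C' hs)
    (A + A') (1 / (finrank ℚ K : ℝ)) hδ hδ1 (by
      intro m hm
      have h1 : (1 : ℝ) ≤ (m : ℝ) := by exact_mod_cast hm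
      have h := hA (m : ℝ) h1
      have h' := hA' (m : ℝ) h1
      rw [main_card_eq K C m, main_card_eq K C' m]
      have e1 := abs_le.mp h
      have e2 := abs_le.mp h'
      rw [abs_le]
      constructor <;> nlinarith [e1.1, e1.2, e2.1, e2.2])

end Fermat.Agent.S14.Thaine.ClassZetaA
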