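/-
S14, Route T, block ClassZetaA.  Polar lifting: every point of the mixed space is the polar lift
of its vector of absolute values; hence the frontier of `normLeOne K` is covered by the maps
`bdryMap K f σ` on the unit cube, together with the point `0`.
FROZEN STATEMENTS (do not change them; helper lemmas have the prefix `polar_`).
-/
import Mathlib
import Fermat.Agent.S14.Thaine.ClassZetaA.Defs
import Fermat.Agent.S14.Thaine.ClassZetaA.Param
import Fermat.Agent.S14.Thaine.ClassZetaA.FaceCover

set_option autoImplicit false

namespace Fermat.Agent.S14.Thaine.ClassZetaA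

open NumberField NumberField.InfinitePlace NumberField.mixedEmbedding
  NumberField.mixedEmbedding.fundamentalCone NumberField.Units
  NumberField.Units.dirichletUnitTheorem

open scoped Classical

variable (K : Type*) [Field K] [NumberField K]

/-- The normalised angle `(arg z + π) / (2π)` lies in `[0, 1]`. -/
theorem polar_angle_mem (z : ℂ) :
    (Complex.arg z + Real.pi) / (2 * Real.pi) ∈ Set.Icc (0 : ℝ) 1 := by
  have hπ := Real.pi_pos
  have h1 := Complex.neg_pi_lt_arg z
  have h2 := Complex.arg_le_pi z
  constructor
  · exact div_nonneg (by linarith) (by linarith)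
  · rw [div_le_one (by linarith)]
    linarith

/-- The normalised angle `(arg z + π) / (2π)` recovers `arg z`. -/
theorem polar_angle_eq (z : ℂ) :
    2 * Real.pi * ((Complex.arg z + Real.pi) / (2 * Real.pi)) - Real.pi = Complex.arg z := by
  have hπ : (2 * Real.pi) ≠ 0 := by
    have := Real.pi_pos
    linarith
  rw [mul_div_cancel₀ _ hπ]
  ring

/-- A real number is `± ‖a‖` according to its sign. -/
theorem polar_sign_mul_norm (a : ℝ) :
    (if (decide (0 ≤ a)) = true then (1 : ℝ) else -1) * ‖a‖ = a := by
  by_cases h : 0 ≤ a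
  · simp [h, Real.norm_eq_abs, abs_of_nonneg h]
  · simp [h, Real.norm_eq_abs, abs_of_neg (not_le.mp h)]

-- (`[NumberField K]` is part of the frozen signature although the proof does not need it.)
set_option linter.unusedSectionVars false in
theorem exists_polarLift (x : mixedSpace K) :
    ∃ (σ : {w : InfinitePlace K // IsReal w} → Bool)
      (θ : {w : InfinitePlace K // IsComplex w} → ℝ),
      θ ∈ Set.Icc (0 : {w : InfinitePlace K // IsComplex w} → ℝ) 1 ∧
        polarLift K σ (normAtAllPlaces x) θ = x := by
  refine ⟨fun w => decide (0 ≤ x.1 w),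
    fun w => (Complex.arg (x.2 w) + Real.pi) / (2 * Real.pi), ?_, ?_⟩
  · rw [Set.mem_Icc]
    exact ⟨fun w => (polar_angle_mem (x.2 w)).1, fun w => (polar_angle_mem (x.2 w)).2⟩
  · refine Prod.ext (funext fun w => ?_) (funext fun w => ?_)
    · simp only [polarLift, normAtAllPlaces_apply, normAtPlace_apply_of_isReal w.2]
      exact polar_sign_mul_norm (x.1 w)
    · simp only [polarLift, normAtAllPlaces_apply, normAtPlace_apply_of_isComplex w.2]
      rw [polar_angle_eq]
      exact Complex.norm_mul_exp_arg_mul_I (x.2 w)

set_option linter.unusedSectionVars false in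
theorem eq_zero_of_normAtAllPlaces_eq_zero (x : mixedSpace K) (hx : normAtAllPlaces x = 0) :
    x = 0 := by
  refine forall_normAtPlace_eq_zero_iff.mp fun w => ?_
  have := congrFun hx w
  simpa using this

theorem frontier_normLeOne_subset_bdryMap :
    frontier (normLeOne K) ⊆ (⋃ f : Face K, ⋃ σ : {w : InfinitePlace K // IsReal w} → Bool,
      bdryMap K f σ '' Set.Icc 0 1) ∪ {0} := by
  intro x hx
  have h := frontier_normLeOne_subset_faceMap K hx
  rw [Set.mem_preimage] at h
  rcases h with h | h
  · left
    obtain ⟨f, u, hu, hfu⟩ := Set.mem_iUnion.mp h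
    obtain ⟨σ, θ, hθ, hσθ⟩ := exists_polarLift K x
    refine Set.mem_iUnion.mpr ⟨f, Set.mem_iUnion.mpr ⟨σ, Sum.elim u θ, ?_, ?_⟩⟩
    · rw [Set.mem_Icc] at hu hθ ⊢
      refine ⟨fun i => ?_, fun i => ?_⟩
      · rcases i with i | i
        · exact hu.1 i
        · exact hθ.1 i
      · rcases i with i | i
        · exact hu.2 i
        · exact hθ.2 i
    · rw [bdryMap, Sum.elim_comp_inl, Sum.elim_comp_inr, hfu, hσθ]
  · right
    rw [Set.mem_singleton_iff] at h ⊢
    exact eq_zero_of_normAtAllPlaces_eq_zero K x h

end Fermat.Agent.S14.Thaine.ClassZetaA
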